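import Fermat.Agent.Ihara.Defs
import Mathlib

/-!
# Basic facts on modular symbols and groups over `ℤ[1/q]`
-/

set_option autoImplicit false

noncomputable section

namespace Fermat.Agent.Ihara

open CongruenceSubgroup Matrix.SpecialLinearGroup
open scoped MatrixGroups

section tr

variable {k : Type*} [AddCommGroup k]

lemma tr_apply (g : GL (Fin 2) ℚ) (φ : Cusp → Cusp → k) (α β : Cusp) :
    tr g φ α β = φ (g • α) (g • β) := rfl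

lemma tr_mul (g h : GL (Fin 2) ℚ) (φ : Cusp → Cusp → k) : tr (g * h) φ = tr h (tr g φ) := by
  funext α β
  rw [tr_apply, tr_apply, tr_apply, mul_smul, mul_smul]

lemma tr_one (φ : Cusp → Cusp → k) : tr 1 φ = φ := by
  funext α β
  rw [tr_apply, one_smul, one_smul]

lemma tr_add (g : GL (Fin 2) ℚ) (φ ψ : Cusp → Cusp → k) : tr g (φ + ψ) = tr g φ + tr g ψ := rfl

lemma tr_sub (g : GL (Fin 2) ℚ) (φ ψ : Cusp → Cusp → k) : tr g (φ - ψ) = tr g φ - tr g ψ := rfl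

lemma tr_neg (g : GL (Fin 2) ℚ) (φ : Cusp → Cusp → k) : tr g (-φ) = -tr g φ := rfl

lemma tr_smul (g : GL (Fin 2) ℚ) (n : ℕ) (φ : Cusp → Cusp → k) : tr g (n • φ) = n • tr g φ := rfl

/-- `tr g` as an additive map -/
def trH (g : GL (Fin 2) ℚ) : (Cusp → Cusp → k) →+ (Cusp → Cusp → k) where
  toFun := tr g
  map_zero' := rfl
  map_add' := tr_add g

lemma tr_sum {κ : Type*} (g : GL (Fin 2) ℚ) (s : Finset κ) (φ : κ → Cusp → Cusp → k) :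
    tr g (∑ i ∈ s, φ i) = ∑ i ∈ s, tr g (φ i) := map_sum (trH g) φ s

variable {φ ψ : Cusp → Cusp → k}

lemma IsMS.self (h : IsMS φ) (α : Cusp) : φ α α = 0 := by
  have := h α α α
  simpa using this

lemma IsMS.swap (h : IsMS φ) (α β : Cusp) : φ β α = -φ α β := by
  have := h α β α
  rw [h.self] at this
  exact eq_neg_of_add_eq_zero_right this

lemma IsMS.ap (h : IsMS φ) (g : GL (Fin 2) ℚ) : IsMS (tr g φ) := fun _ _ _ => h _ _ _

lemma IsMS.add (h : IsMS φ) (h' : IsMS ψ) : IsMS (φ + ψ) := fun α β γ => by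
  have h1 := h α β γ
  have h2 := h' α β γ
  simp only [Pi.add_apply]
  rw [← h1, ← h2]
  abel

lemma IsMS.neg (h : IsMS φ) : IsMS (-φ) := fun α β γ => by
  have h1 := h α β γ
  simp only [Pi.neg_apply]
  rw [← h1]
  abel

lemma IsMS.sub (h : IsMS φ) (h' : IsMS ψ) : IsMS (φ - ψ) := by
  rw [sub_eq_add_neg]
  exact h.add h'.neg

lemma isMS_zero : IsMS (0 : Cusp → Cusp → k) := fun _ _ _ => by simp

lemma IsMS.smul (h : IsMS φ) (n : ℕ) : IsMS (n • φ) := fun α β γ => by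
  have h1 := h α β γ
  simp only [Pi.smul_apply]
  rw [← h1, nsmul_add]

lemma IsMS.sum {κ : Type*} (s : Finset κ) {φ : κ → Cusp → Cusp → k} (h : ∀ i ∈ s, IsMS (φ i)) :
    IsMS (∑ i ∈ s, φ i) := by
  classical
  induction s using Finset.induction_on with
  | empty => exact isMS_zero
  | insert a s ha ih =>
    rw [Finset.sum_insert ha]
    exact (h a (Finset.mem_insert_self _ _)).add (ih fun i hi => h i (Finset.mem_insert_of_mem hi))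

/-- the hom attached to a symbol, for elements preserving it -/
lemma IsMS.base (h : IsMS φ) {g : GL (Fin 2) ℚ} (hg : tr g φ = φ) (α β : Cusp) :
    φ α (g • α) = φ β (g • β) := by
  have h1 : φ (g • α) (g • β) = φ α β := congrFun (congrFun hg α) β
  have h2 := h β α (g • α)
  have h3 := h β (g • α) (g • β)
  rw [← h2, h1, h.swap α β] at h3
  rw [← h3]
  abel

lemma IsMS.hom (h : IsMS φ) {g : GL (Fin 2) ℚ} (hg : tr g φ = φ) (g' : GL (Fin 2) ℚ) (α : Cusp) :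
    φ α ((g * g') • α) = φ α (g • α) + φ α (g' • α) := by
  have h1 : φ (g • α) (g • (g' • α)) = φ α (g' • α) := congrFun (congrFun hg α) (g' • α)
  rw [mul_smul, ← h1, h]

end tr

/-! ### matrices -/

/-- general element of `GL₂(ℚ)` -/
def g4 (a b c d : ℚ) : GL (Fin 2) ℚ :=
  if h : a * d - b * c ≠ 0 then Matrix.GeneralLinearGroup.mkOfDetNeZero !![a, b; c, d]
    (by rw [Matrix.det_fin_two_of]; exact h) else 1

lemma coe_g4 {a b c d : ℚ} (h : a * d - b * c ≠ 0) :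
    ((g4 a b c d : GL (Fin 2) ℚ) : Matrix (Fin 2) (Fin 2) ℚ) = !![a, b; c, d] := by
  rw [g4, dif_pos h]
  rfl

lemma um_eq {a b d : ℚ} (h : a * d ≠ 0) : um a b d = g4 a b 0 d := by
  apply Units.ext
  rw [coe_um h, coe_g4 (by simpa using h)]

lemma gl_ext {x y : GL (Fin 2) ℚ} (h00 : x 0 0 = y 0 0) (h01 : x 0 1 = y 0 1) (h10 : x 1 0 = y 1 0)
    (h11 : x 1 1 = y 1 1) : x = y := by
  apply Units.ext
  ext i j
  fin_cases i <;> fin_cases j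
  · exact h00
  · exact h01
  · exact h10
  · exact h11

lemma g4_00 {a b c d : ℚ} (h : a * d - b * c ≠ 0) : (g4 a b c d) 0 0 = a := by rw [coe_g4 h]; rfl
lemma g4_01 {a b c d : ℚ} (h : a * d - b * c ≠ 0) : (g4 a b c d) 0 1 = b := by rw [coe_g4 h]; rfl
lemma g4_10 {a b c d : ℚ} (h : a * d - b * c ≠ 0) : (g4 a b c d) 1 0 = c := by rw [coe_g4 h]; rfl
lemma g4_11 {a b c d : ℚ} (h : a * d - b * c ≠ 0) : (g4 a b c d) 1 1 = d := by rw [coe_g4 h]; rfl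

/-- determinant -/
def dt (x : GL (Fin 2) ℚ) : ℚ := x 0 0 * x 1 1 - x 0 1 * x 1 0

lemma dt_eq (x : GL (Fin 2) ℚ) : dt x = (x : Matrix (Fin 2) (Fin 2) ℚ).det := by
  rw [Matrix.det_fin_two]; rfl

lemma dt_ne (x : GL (Fin 2) ℚ) : dt x ≠ 0 := by
  rw [dt_eq]; exact Matrix.GeneralLinearGroup.det_ne_zero x

lemma dt_mul (x y : GL (Fin 2) ℚ) : dt (x * y) = dt x * dt y := by
  rw [dt_eq, dt_eq, dt_eq, Units.val_mul, Matrix.det_mul]

lemma dt_one : dt 1 = 1 := by rw [dt_eq]; simp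

lemma dt_inv (x : GL (Fin 2) ℚ) : dt x⁻¹ = (dt x)⁻¹ := by
  have : dt x⁻¹ * dt x = 1 := by rw [← dt_mul, inv_mul_cancel, dt_one]
  exact eq_inv_of_mul_eq_one_left this

lemma mul_00 (x y : GL (Fin 2) ℚ) : (x * y) 0 0 = x 0 0 * y 0 0 + x 0 1 * y 1 0 := by
  rw [Units.val_mul, Matrix.mul_apply, Fin.sum_univ_two]
lemma mul_01 (x y : GL (Fin 2) ℚ) : (x * y) 0 1 = x 0 0 * y 0 1 + x 0 1 * y 1 1 := by
  rw [Units.val_mul, Matrix.mul_apply, Fin.sum_univ_two]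
lemma mul_10 (x y : GL (Fin 2) ℚ) : (x * y) 1 0 = x 1 0 * y 0 0 + x 1 1 * y 1 0 := by
  rw [Units.val_mul, Matrix.mul_apply, Fin.sum_univ_two]
lemma mul_11 (x y : GL (Fin 2) ℚ) : (x * y) 1 1 = x 1 0 * y 0 1 + x 1 1 * y 1 1 := by
  rw [Units.val_mul, Matrix.mul_apply, Fin.sum_univ_two]

lemma inv_eq_g4 {x : GL (Fin 2) ℚ} (h : dt x = 1) : x⁻¹ = g4 (x 1 1) (-x 0 1) (-x 1 0) (x 0 0) := by
  have hd : x 1 1 * x 0 0 - -x 0 1 * -x 1 0 ≠ 0 := by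
    have : x 1 1 * x 0 0 - -x 0 1 * -x 1 0 = dt x := by rw [dt]; ring
    rw [this, h]; exact one_ne_zero
  rw [inv_eq_iff_mul_eq_one]
  rw [dt] at h
  apply gl_ext
  · rw [mul_00, g4_00 hd, g4_10 hd]
    simp
    linear_combination h
  · rw [mul_01, g4_01 hd, g4_11 hd]
    simp
    ring
  · rw [mul_10, g4_00 hd, g4_10 hd]
    simp
    ring
  · rw [mul_11, g4_01 hd, g4_11 hd]
    simp
    linear_combination h

lemma inv_00 {x : GL (Fin 2) ℚ} (h : dt x = 1) : x⁻¹ 0 0 = x 1 1 := by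
  rw [inv_eq_g4 h, g4_00]
  have : x 1 1 * x 0 0 - -x 0 1 * -x 1 0 = dt x := by rw [dt]; ring
  rw [this, h]; exact one_ne_zero
lemma inv_01 {x : GL (Fin 2) ℚ} (h : dt x = 1) : x⁻¹ 0 1 = -x 0 1 := by
  rw [inv_eq_g4 h, g4_01]
  have : x 1 1 * x 0 0 - -x 0 1 * -x 1 0 = dt x := by rw [dt]; ring
  rw [this, h]; exact one_ne_zero
lemma inv_10 {x : GL (Fin 2) ℚ} (h : dt x = 1) : x⁻¹ 1 0 = -x 1 0 := by
  rw [inv_eq_g4 h, g4_10]
  have : x 1 1 * x 0 0 - -x 0 1 * -x 1 0 = dt x := by rw [dt]; ring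
  rw [this, h]; exact one_ne_zero
lemma inv_11 {x : GL (Fin 2) ℚ} (h : dt x = 1) : x⁻¹ 1 1 = x 0 0 := by
  rw [inv_eq_g4 h, g4_11]
  have : x 1 1 * x 0 0 - -x 0 1 * -x 1 0 = dt x := by rw [dt]; ring
  rw [this, h]; exact one_ne_zero

/-- upper unipotent -/
def U (y : ℚ) : GL (Fin 2) ℚ := g4 1 y 0 1

/-- lower unipotent -/
def Lo (y : ℚ) : GL (Fin 2) ℚ := g4 1 0 y 1

/-- diagonal -/
def Dg (u : ℚ) : GL (Fin 2) ℚ := g4 u 0 0 u⁻¹

section entries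
variable (y : ℚ)
lemma U_00 : (U y) 0 0 = 1 := g4_00 (by simp)
lemma U_01 : (U y) 0 1 = y := g4_01 (by simp)
lemma U_10 : (U y) 1 0 = 0 := g4_10 (by simp)
lemma U_11 : (U y) 1 1 = 1 := g4_11 (by simp)
lemma Lo_00 : (Lo y) 0 0 = 1 := g4_00 (by simp)
lemma Lo_01 : (Lo y) 0 1 = 0 := g4_01 (by simp)
lemma Lo_10 : (Lo y) 1 0 = y := g4_10 (by simp)
lemma Lo_11 : (Lo y) 1 1 = 1 := g4_11 (by simp)
variable {u : ℚ} (hu : u ≠ 0)
include hu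
lemma Dg_00 : (Dg u) 0 0 = u := g4_00 (by simp [hu])
lemma Dg_01 : (Dg u) 0 1 = 0 := g4_01 (by simp [hu])
lemma Dg_10 : (Dg u) 1 0 = 0 := g4_10 (by simp [hu])
lemma Dg_11 : (Dg u) 1 1 = u⁻¹ := g4_11 (by simp [hu])
lemma dt_Dg : dt (Dg u) = 1 := by rw [dt, Dg_00 hu, Dg_01 hu, Dg_10 hu, Dg_11 hu]; field_simp; ring
end entries

lemma dt_U (y : ℚ) : dt (U y) = 1 := by rw [dt, U_00, U_01, U_10, U_11]; ring
lemma dt_Lo (y : ℚ) : dt (Lo y) = 1 := by rw [dt, Lo_00, Lo_01, Lo_10, Lo_11]; ring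

lemma U_add (y z : ℚ) : U (y + z) = U y * U z := by
  apply gl_ext
  · rw [mul_00]; simp only [U_00, U_01, U_10, U_11]; ring
  · rw [mul_01]; simp only [U_00, U_01, U_10, U_11]; ring
  · rw [mul_10]; simp only [U_00, U_01, U_10, U_11]; ring
  · rw [mul_11]; simp only [U_00, U_01, U_10, U_11]; ring

lemma U_zero : U 0 = 1 := by
  apply gl_ext
  · rw [U_00]; simp
  · rw [U_01]; simp
  · rw [U_10]; simp
  · rw [U_11]; simp

lemma U_neg (y : ℚ) : U (-y) = (U y)⁻¹ := by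
  rw [eq_inv_iff_mul_eq_one, ← U_add, neg_add_cancel, U_zero]

lemma U_smul_infty (y : ℚ) : U y • (OnePoint.infty : Cusp) = OnePoint.infty := by
  rw [OnePoint.smul_infty_eq_self_iff]
  exact U_10 y

lemma Lo_smul_zero (y : ℚ) : Lo y • ((0 : ℚ) : Cusp) = ((0 : ℚ) : Cusp) := by
  rw [OnePoint.smul_some_eq_ite]
  rw [Lo_00, Lo_01, Lo_10, Lo_11]
  simp

/-! ### localised integers -/

/-- `M ℤ[1/q]` -/
def IA (q M : ℕ) : AddSubgroup ℚ where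
  carrier := {r | ∃ (n : ℕ) (z : ℤ), (q : ℚ) ^ n * r = M * z}
  zero_mem' := ⟨0, 0, by simp⟩
  add_mem' := by
    rintro a b ⟨n, z, h⟩ ⟨n', z', h'⟩
    refine ⟨n + n', q ^ n' * z + q ^ n * z', ?_⟩
    push_cast
    rw [pow_add]
    linear_combination (q : ℚ) ^ n' * h + (q : ℚ) ^ n * h'
  neg_mem' := by
    rintro a ⟨n, z, h⟩
    exact ⟨n, -z, by push_cast; linear_combination -h⟩

lemma mem_IA {q M : ℕ} {r : ℚ} : r ∈ IA q M ↔ ∃ (n : ℕ) (z : ℤ), (q : ℚ) ^ n * r = M * z := Iff.rfl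

lemma IA_mul {q M M' : ℕ} {a b : ℚ} (ha : a ∈ IA q M) (hb : b ∈ IA q M') :
    a * b ∈ IA q (M * M') := by
  obtain ⟨n, z, h⟩ := ha
  obtain ⟨n', z', h'⟩ := hb
  refine ⟨n + n', z * z', ?_⟩
  push_cast
  rw [pow_add]
  linear_combination (q : ℚ) ^ n' * b * h + (M : ℚ) * z * h'

lemma IA_mul_left {q M : ℕ} {a b : ℚ} (ha : a ∈ IA q 1) (hb : b ∈ IA q M) : a * b ∈ IA q M := by
  have := IA_mul ha hb
  rwa [one_mul] at this

lemma IA_mul_right {q M : ℕ} {a b : ℚ} (ha : a ∈ IA q M) (hb : b ∈ IA q 1) : a * b ∈ IA q M := by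
  rw [mul_comm]; exact IA_mul_left hb ha

lemma IA_mono {q M M' : ℕ} (h : M ∣ M') {a : ℚ} (ha : a ∈ IA q M') : a ∈ IA q M := by
  obtain ⟨n, z, h'⟩ := ha
  obtain ⟨c, rfl⟩ := h
  exact ⟨n, c * z, by rw [h']; push_cast; ring⟩

lemma IA_one {q M : ℕ} {a : ℚ} (ha : a ∈ IA q M) : a ∈ IA q 1 := IA_mono (one_dvd M) ha

lemma int_mem_IA (q : ℕ) (z : ℤ) : (z : ℚ) ∈ IA q 1 := ⟨0, z, by simp⟩

lemma one_mem_IA (q : ℕ) : (1 : ℚ) ∈ IA q 1 := ⟨0, 1, by simp⟩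

lemma mul_int_mem_IA (q M : ℕ) (z : ℤ) : (M : ℚ) * z ∈ IA q M := ⟨0, z, by simp⟩

lemma qpow_mem (q n : ℕ) : ((q : ℚ) ^ n) ∈ IA q 1 := by
  have := int_mem_IA q (q ^ n)
  push_cast at this
  exact this

lemma qinv_mem {q : ℕ} (hq : q ≠ 0) (n : ℕ) : (((q : ℚ) ^ n)⁻¹) ∈ IA q 1 := by
  refine ⟨n, 1, ?_⟩
  have : (q : ℚ) ^ n ≠ 0 := pow_ne_zero _ (by exact_mod_cast hq)
  rw [mul_inv_cancel₀ this]; simp

/-! ### groups -/

/-- the principal congruence subgroup of level `M` of `SL₂(ℤ[1/q])` -/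
def GM (q M : ℕ) : Subgroup (GL (Fin 2) ℚ) where
  carrier := {x | dt x = 1 ∧ x 0 0 - 1 ∈ IA q M ∧ x 0 1 ∈ IA q M ∧ x 1 0 ∈ IA q M ∧
    x 1 1 - 1 ∈ IA q M}
  one_mem' := by
    refine ⟨dt_one, ?_, ?_, ?_, ?_⟩ <;> simp [zero_mem]
  mul_mem' := by
    rintro x y ⟨hx, x1, x2, x3, x4⟩ ⟨hy, y1, y2, y3, y4⟩
    have o := one_mem_IA q
    refine ⟨by rw [dt_mul, hx, hy, one_mul], ?_, ?_, ?_, ?_⟩
    · rw [mul_00]
      have e : x 0 0 * y 0 0 + x 0 1 * y 1 0 - 1 =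
        (x 0 0 - 1) * (y 0 0 - 1) + (x 0 0 - 1) + (y 0 0 - 1) + x 0 1 * y 1 0 := by ring
      rw [e]
      exact add_mem (add_mem (add_mem (IA_mul_right x1 (IA_one y1)) x1) y1)
        (IA_mul_right x2 (IA_one y3))
    · rw [mul_01]
      have e : x 0 0 * y 0 1 + x 0 1 * y 1 1 =
        (x 0 0 - 1) * y 0 1 + y 0 1 + x 0 1 * (y 1 1 - 1) + x 0 1 := by ring
      rw [e]
      exact add_mem (add_mem (add_mem (IA_mul_right x1 (IA_one y2)) y2)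
        (IA_mul_right x2 (IA_one y4))) x2
    · rw [mul_10]
      have e : x 1 0 * y 0 0 + x 1 1 * y 1 0 =
        x 1 0 * (y 0 0 - 1) + x 1 0 + (x 1 1 - 1) * y 1 0 + y 1 0 := by ring
      rw [e]
      exact add_mem (add_mem (add_mem (IA_mul_right x3 (IA_one y1)) x3)
        (IA_mul_right x4 (IA_one y3))) y3
    · rw [mul_11]
      have e : x 1 0 * y 0 1 + x 1 1 * y 1 1 - 1 =
        x 1 0 * y 0 1 + (x 1 1 - 1) * (y 1 1 - 1) + (x 1 1 - 1) + (y 1 1 - 1) := by ring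
      rw [e]
      exact add_mem (add_mem (add_mem (IA_mul_right x3 (IA_one y2)) (IA_mul_right x4 (IA_one y4)))
        x4) y4
  inv_mem' := by
    rintro x ⟨hx, x1, x2, x3, x4⟩
    refine ⟨by rw [dt_inv, hx, inv_one], ?_, ?_, ?_, ?_⟩
    · rw [inv_00 hx]; exact x4
    · rw [inv_01 hx]; exact neg_mem x2
    · rw [inv_10 hx]; exact neg_mem x3
    · rw [inv_11 hx]; exact x1

lemma mem_GM {q M : ℕ} {x : GL (Fin 2) ℚ} : x ∈ GM q M ↔ dt x = 1 ∧ x 0 0 - 1 ∈ IA q M ∧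
    x 0 1 ∈ IA q M ∧ x 1 0 ∈ IA q M ∧ x 1 1 - 1 ∈ IA q M := Iff.rfl

/-- the group `Γ₀(N)` over `ℤ[1/q]` -/
def G0 (q N : ℕ) : Subgroup (GL (Fin 2) ℚ) where
  carrier := {x | dt x = 1 ∧ x 0 0 ∈ IA q 1 ∧ x 0 1 ∈ IA q 1 ∧ x 1 0 ∈ IA q N ∧ x 1 1 ∈ IA q 1}
  one_mem' := by
    refine ⟨dt_one, ?_, ?_, ?_, ?_⟩ <;> simp [zero_mem, one_mem_IA]
  mul_mem' := by
    rintro x y ⟨hx, x1, x2, x3, x4⟩ ⟨hy, y1, y2, y3, y4⟩
    refine ⟨by rw [dt_mul, hx, hy, one_mul], ?_, ?_, ?_, ?_⟩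
    · rw [mul_00]
      exact add_mem (IA_mul_left x1 y1) (IA_mul_left x2 (IA_one y3))
    · rw [mul_01]
      exact add_mem (IA_mul_left x1 y2) (IA_mul_left x2 y4)
    · rw [mul_10]
      exact add_mem (IA_mul_right x3 y1) (IA_mul_left x4 y3)
    · rw [mul_11]
      exact add_mem (IA_mul_left (IA_one x3) y2) (IA_mul_left x4 y4)
  inv_mem' := by
    rintro x ⟨hx, x1, x2, x3, x4⟩
    refine ⟨by rw [dt_inv, hx, inv_one], ?_, ?_, ?_, ?_⟩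
    · rw [inv_00 hx]; exact x4
    · rw [inv_01 hx]; exact neg_mem x2
    · rw [inv_10 hx]; exact neg_mem x3
    · rw [inv_11 hx]; exact x1

lemma mem_G0 {q N : ℕ} {x : GL (Fin 2) ℚ} : x ∈ G0 q N ↔ dt x = 1 ∧ x 0 0 ∈ IA q 1 ∧
    x 0 1 ∈ IA q 1 ∧ x 1 0 ∈ IA q N ∧ x 1 1 ∈ IA q 1 := Iff.rfl

lemma GM_le_G0 {q N M : ℕ} (h : N ∣ M) : GM q M ≤ G0 q N := by
  rintro x ⟨hx, x1, x2, x3, x4⟩
  refine ⟨hx, ?_, IA_one x2, IA_mono h x3, ?_⟩
  · have := add_mem (IA_one x1) (one_mem_IA q)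
    simpa using this
  · have := add_mem (IA_one x4) (one_mem_IA q)
    simpa using this

lemma GM_mono {q M M' : ℕ} (h : M ∣ M') : GM q M' ≤ GM q M := by
  rintro x ⟨hx, x1, x2, x3, x4⟩
  exact ⟨hx, IA_mono h x1, IA_mono h x2, IA_mono h x3, IA_mono h x4⟩

lemma GM_conj {q M : ℕ} {z x : GL (Fin 2) ℚ} (hz : z ∈ G0 q 1) (hx : x ∈ GM q M) :
    z * x * z⁻¹ ∈ GM q M := by
  obtain ⟨hz0, z1, z2, z3, z4⟩ := hz
  obtain ⟨hx0, x1, x2, x3, x4⟩ := hx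
  have hdet : z 0 0 * z 1 1 - z 0 1 * z 1 0 = 1 := hz0
  refine ⟨by rw [dt_mul, dt_mul, dt_inv, hz0, hx0]; norm_num, ?_, ?_, ?_, ?_⟩
  · rw [mul_00, mul_00, mul_01, inv_00 hz0, inv_10 hz0]
    have e : (z 0 0 * x 0 0 + z 0 1 * x 1 0) * z 1 1 + (z 0 0 * x 0 1 + z 0 1 * x 1 1) * -z 1 0 - 1 =
        (z 0 0 * z 1 1) * (x 0 0 - 1) + (z 0 1 * z 1 1) * x 1 0 - (z 0 0 * z 1 0) * x 0 1 -
          (z 0 1 * z 1 0) * (x 1 1 - 1) := by linear_combination hdet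
    rw [e]
    exact sub_mem (sub_mem (add_mem (IA_mul_left (IA_mul_left z1 z4) x1)
      (IA_mul_left (IA_mul_left z2 z4) x3)) (IA_mul_left (IA_mul_left z1 z3) x2))
      (IA_mul_left (IA_mul_left z2 z3) x4)
  · rw [mul_01, mul_00, mul_01, inv_01 hz0, inv_11 hz0]
    have e : (z 0 0 * x 0 0 + z 0 1 * x 1 0) * -z 0 1 + (z 0 0 * x 0 1 + z 0 1 * x 1 1) * z 0 0 =
        -(z 0 0 * z 0 1) * (x 0 0 - 1) - (z 0 1 * z 0 1) * x 1 0 + (z 0 0 * z 0 0) * x 0 1 +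
          (z 0 1 * z 0 0) * (x 1 1 - 1) := by ring
    rw [e]
    exact add_mem (add_mem (sub_mem (IA_mul_left (neg_mem (IA_mul_left z1 z2)) x1)
      (IA_mul_left (IA_mul_left z2 z2) x3)) (IA_mul_left (IA_mul_left z1 z1) x2))
      (IA_mul_left (IA_mul_left z2 z1) x4)
  · rw [mul_10, mul_10, mul_11, inv_00 hz0, inv_10 hz0]
    have e : (z 1 0 * x 0 0 + z 1 1 * x 1 0) * z 1 1 + (z 1 0 * x 0 1 + z 1 1 * x 1 1) * -z 1 0 =
        (z 1 0 * z 1 1) * (x 0 0 - 1) + (z 1 1 * z 1 1) * x 1 0 - (z 1 0 * z 1 0) * x 0 1 -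
          (z 1 1 * z 1 0) * (x 1 1 - 1) := by ring
    rw [e]
    exact sub_mem (sub_mem (add_mem (IA_mul_left (IA_mul_left z3 z4) x1)
      (IA_mul_left (IA_mul_left z4 z4) x3)) (IA_mul_left (IA_mul_left z3 z3) x2))
      (IA_mul_left (IA_mul_left z4 z3) x4)
  · rw [mul_11, mul_10, mul_11, inv_01 hz0, inv_11 hz0]
    have e : (z 1 0 * x 0 0 + z 1 1 * x 1 0) * -z 0 1 + (z 1 0 * x 0 1 + z 1 1 * x 1 1) * z 0 0 - 1 =
        -(z 1 0 * z 0 1) * (x 0 0 - 1) - (z 1 1 * z 0 1) * x 1 0 + (z 1 0 * z 0 0) * x 0 1 +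
          (z 1 1 * z 0 0) * (x 1 1 - 1) := by linear_combination hdet
    rw [e]
    exact add_mem (add_mem (sub_mem (IA_mul_left (neg_mem (IA_mul_left z3 z2)) x1)
      (IA_mul_left (IA_mul_left z4 z2) x3)) (IA_mul_left (IA_mul_left z3 z1) x2))
      (IA_mul_left (IA_mul_left z4 z1) x4)

lemma U_mem_GM {q M : ℕ} {y : ℚ} (hy : y ∈ IA q M) : U y ∈ GM q M :=
  ⟨dt_U y, by rw [U_00]; simp [zero_mem], by rw [U_01]; exact hy, by rw [U_10]; exact zero_mem _,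
    by rw [U_11]; simp [zero_mem]⟩

lemma U_mem_G0 {q N : ℕ} {y : ℚ} (hy : y ∈ IA q 1) : U y ∈ G0 q N :=
  ⟨dt_U y, by rw [U_00]; exact one_mem_IA q, by rw [U_01]; exact hy,
    by rw [U_10]; exact zero_mem _, by rw [U_11]; exact one_mem_IA q⟩

end Fermat.Agent.Ihara
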