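import Fermat.Agent.Ihara.Gen
import Fermat.Agent.AnJacH.HeckeG

/-!
# Hecke operators on symbols and cosets
-/

set_option autoImplicit false

noncomputable section

namespace Fermat.Agent.Ihara

open CongruenceSubgroup Matrix.SpecialLinearGroup
open scoped MatrixGroups
open Fermat.Agent.AnJac Fermat.Agent.AnJacH
open P2MW.S_ModularForm_heckeT_slash_eq_self_of_mem_Gamma0.ModularForm.HeckeSlashInvariance

variable {k : Type*} [AddCommGroup k] {N : ℕ}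

/-- entries of the representatives -/
def ea (ℓ : ℕ) (i : OnePoint (ZMod ℓ)) : ℤ := i.elim ℓ (fun _ => 1)
def eb (ℓ : ℕ) (i : OnePoint (ZMod ℓ)) : ℤ := i.elim 0 (fun x => x.val)
def ed (ℓ : ℕ) (i : OnePoint (ZMod ℓ)) : ℤ := i.elim 1 (fun _ => ℓ)

lemma ea_ed (ℓ : ℕ) (i : OnePoint (ZMod ℓ)) : ea ℓ i * ed ℓ i = ℓ := by
  induction i using OnePoint.rec with
  | infty => exact mul_one _
  | coe x => exact one_mul _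

/-- representatives -/
def rq (ℓ : ℕ) (i : OnePoint (ZMod ℓ)) : GL (Fin 2) ℚ := um (ea ℓ i) (eb ℓ i) (ed ℓ i)

lemma rq_val {ℓ : ℕ} (hℓ : ℓ ≠ 0) (i : OnePoint (ZMod ℓ)) :
    ((rq ℓ i : GL (Fin 2) ℚ) : Matrix (Fin 2) (Fin 2) ℚ) =
      !![(ea ℓ i : ℚ), (eb ℓ i : ℚ); 0, (ed ℓ i : ℚ)] := by
  rw [rq, coe_um]
  have : ((ea ℓ i : ℚ)) * ed ℓ i = ℓ := by exact_mod_cast ea_ed ℓ i
  rw [this]
  exact_mod_cast hℓ

lemma heckeRep_val {ℓ : ℕ} (hℓ : ℓ ≠ 0) (i : OnePoint (ZMod ℓ)) :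
    ((heckeRep ℓ i : GL (Fin 2) ℝ) : Matrix (Fin 2) (Fin 2) ℝ) =
      !![(ea ℓ i : ℝ), (eb ℓ i : ℝ); 0, (ed ℓ i : ℝ)] := by
  induction i using OnePoint.rec with
  | infty =>
    refine (val_heckeD hℓ).trans ?_
    simp [ea, eb, ed]
  | coe x =>
    refine (val_heckeM hℓ x.val).trans ?_
    simp [ea, eb, ed]

variable {ℓ : ℕ} [hℓ : Fact ℓ.Prime] (hℓN : ¬ ℓ ∣ N)

/-- the permutation relation, over the integers -/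
lemma spec_int (γ : Gamma0 N) (i : OnePoint (ZMod ℓ)) :
    (ea ℓ i * (γ : SL(2,ℤ)) 0 0 + eb ℓ i * (γ : SL(2,ℤ)) 1 0 =
      ((hfT N ℓ hℓN).g γ i : SL(2,ℤ)) 0 0 * ea ℓ ((hfT N ℓ hℓN).s γ i)) ∧
    (ea ℓ i * (γ : SL(2,ℤ)) 0 1 + eb ℓ i * (γ : SL(2,ℤ)) 1 1 =
      ((hfT N ℓ hℓN).g γ i : SL(2,ℤ)) 0 0 * eb ℓ ((hfT N ℓ hℓN).s γ i) +
        ((hfT N ℓ hℓN).g γ i : SL(2,ℤ)) 0 1 * ed ℓ ((hfT N ℓ hℓN).s γ i)) ∧
    (ed ℓ i * (γ : SL(2,ℤ)) 1 0 =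
      ((hfT N ℓ hℓN).g γ i : SL(2,ℤ)) 1 0 * ea ℓ ((hfT N ℓ hℓN).s γ i)) ∧
    (ed ℓ i * (γ : SL(2,ℤ)) 1 1 =
      ((hfT N ℓ hℓN).g γ i : SL(2,ℤ)) 1 0 * eb ℓ ((hfT N ℓ hℓN).s γ i) +
        ((hfT N ℓ hℓN).g γ i : SL(2,ℤ)) 1 1 * ed ℓ ((hfT N ℓ hℓN).s γ i)) := by
  have hℓ0 := hℓ.out.ne_zero
  have e := (hfT N ℓ hℓN).spec γ i
  have hA := heckeRep_val hℓ0 i
  have hA' := heckeRep_val hℓ0 ((hfT N ℓ hℓN).s γ i)
  change heckeRep ℓ i * gl γ = gl ((hfT N ℓ hℓN).g γ i) * heckeRep ℓ ((hfT N ℓ hℓN).s γ i) at e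
  have h00 := congrArg (fun B : GL (Fin 2) ℝ => (B : Matrix (Fin 2) (Fin 2) ℝ) 0 0) e
  have h01 := congrArg (fun B : GL (Fin 2) ℝ => (B : Matrix (Fin 2) (Fin 2) ℝ) 0 1) e
  have h10 := congrArg (fun B : GL (Fin 2) ℝ => (B : Matrix (Fin 2) (Fin 2) ℝ) 1 0) e
  have h11 := congrArg (fun B : GL (Fin 2) ℝ => (B : Matrix (Fin 2) (Fin 2) ℝ) 1 1) e
  simp only [Units.val_mul, hA, hA', Matrix.mul_apply, Fin.sum_univ_two] at h00 h01 h10 h11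
  simp [gl] at h00 h01 h10 h11
  exact ⟨by exact_mod_cast h00, by exact_mod_cast h01, by exact_mod_cast h10, by exact_mod_cast h11⟩

/-- the permutation relation, over the rationals -/
lemma spec_rat (γ : Gamma0 N) (i : OnePoint (ZMod ℓ)) :
    rq ℓ i * mapGL ℚ (γ : SL(2,ℤ)) =
      mapGL ℚ ((hfT N ℓ hℓN).g γ i : SL(2,ℤ)) * rq ℓ ((hfT N ℓ hℓN).s γ i) := by
  have hℓ0 := hℓ.out.ne_zero
  obtain ⟨h00, h01, h10, h11⟩ := spec_int hℓN γ i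
  have v : ∀ i, rq ℓ i 0 0 = ea ℓ i ∧ rq ℓ i 0 1 = eb ℓ i ∧ rq ℓ i 1 0 = 0 ∧ rq ℓ i 1 1 = ed ℓ i := by
    intro i
    rw [rq_val hℓ0]
    exact ⟨rfl, rfl, rfl, rfl⟩
  obtain ⟨a1, a2, a3, a4⟩ := v i
  obtain ⟨b1, b2, b3, b4⟩ := v ((hfT N ℓ hℓN).s γ i)
  apply gl_ext
  · rw [mul_00, mul_00, a1, a2, b1, b3, mapGL_00, mapGL_10, mapGL_00, mapGL_01, mul_zero, add_zero]
    exact_mod_cast h00
  · rw [mul_01, mul_01, a1, a2, b2, b4, mapGL_01, mapGL_11, mapGL_00, mapGL_01]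
    exact_mod_cast h01
  · rw [mul_10, mul_10, a3, a4, b1, b3, mapGL_00, mapGL_10, mapGL_10, mapGL_11, mul_zero, add_zero,
      zero_mul, zero_add]
    exact_mod_cast h10
  · rw [mul_11, mul_11, a3, a4, b2, b4, mapGL_01, mapGL_11, mapGL_10, mapGL_11, zero_mul, zero_add]
    exact_mod_cast h11

lemma TS_eq_rq (φ : Cusp → Cusp → k) : TS ℓ φ = ∑ i : OnePoint (ZMod ℓ), tr (rq ℓ i) φ := by
  have h1 : (∑ i : OnePoint (ZMod ℓ), tr (rq ℓ i) φ) =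
      tr (rq ℓ OnePoint.infty) φ + ∑ x : ZMod ℓ, tr (rq ℓ (x : OnePoint (ZMod ℓ))) φ :=
    Fintype.sum_option (fun x : OnePoint (ZMod ℓ) => tr (rq ℓ x) φ)
  rw [h1, TS]
  have h0 : tr (um ℓ 0 1) φ = tr (rq ℓ OnePoint.infty) φ := by
    change _ = tr (um ((ℓ : ℤ) : ℚ) ((0 : ℤ) : ℚ) ((1 : ℤ) : ℚ)) φ
    push_cast
    rfl
  rw [h0, add_right_inj]
  · have h2 : ∀ x : ZMod ℓ, tr (rq ℓ (x : OnePoint (ZMod ℓ))) φ =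
        (fun j : ℕ => tr (um 1 j ℓ) φ) x.val := by
      intro x
      change tr (um ((1 : ℤ) : ℚ) ((x.val : ℤ) : ℚ) ((ℓ : ℤ) : ℚ)) φ = _
      push_cast
      rfl
    rw [Finset.sum_congr rfl fun x _ => h2 x]
    obtain ⟨n, hn⟩ : ∃ n, ℓ = n + 1 := ⟨ℓ - 1, (Nat.succ_pred_eq_of_pos hℓ.out.pos).symm⟩
    subst hn
    rw [Finset.sum_range]
    rfl

include hℓN in
/-- `T_ℓ` preserves `Sym(N,k)` -/
theorem InSym.TS {φ : Cusp → Cusp → k} (h : InSym N φ) : InSym N (TS ℓ φ) := by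
  refine ⟨h.ms.TS ℓ, fun γ hγ => ?_⟩
  rw [TS_eq_rq, tr_sum]
  have h1 : ∀ i, tr (mapGL ℚ γ) (tr (rq ℓ i) φ) = tr (rq ℓ ((hfT N ℓ hℓN).s ⟨γ, hγ⟩ i)) φ := by
    intro i
    have h2 := spec_rat hℓN ⟨γ, hγ⟩ i
    rw [← tr_mul, h2, tr_mul, h.inv _ ((hfT N ℓ hℓN).g ⟨γ, hγ⟩ i).2]
  rw [Finset.sum_congr rfl fun i _ => h1 i]
  exact Equiv.sum_comp ((hfT N ℓ hℓN).sE ⟨γ, hγ⟩) (fun i => tr (rq ℓ i) φ)

include hℓN in
lemma InSym.FS {φ : Cusp → Cusp → k} (h : InSym N φ) : InSym N (FS ℓ φ) := by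
  refine ⟨(h.ms.TS ℓ).TS ℓ |>.sub (h.ms.smul _), fun γ hγ => ?_⟩
  rw [Ihara.FS, tr_sub, tr_smul, ((h.TS hℓN).TS hℓN).inv γ hγ, h.inv γ hγ]

include hℓN in
lemma InSym.ES {φ : Cusp → Cusp → k} (h : InSym N φ) : InSym N (ES ℓ φ) := by
  refine ⟨(h.ms.TS ℓ).sub (h.ms.smul _), fun γ hγ => ?_⟩
  rw [Ihara.ES, tr_sub, tr_smul, (h.TS hℓN).inv γ hγ, h.inv γ hγ]

/-- the hom of `T_ℓ φ` -/
theorem Hm_TS {φ : Cusp → Cusp → k} (h : InSym N φ) (γ : Gamma0 N) :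
    Hm (TS ℓ φ) (mapGL ℚ (γ : SL(2,ℤ))) =
      ∑ i : OnePoint (ZMod ℓ), Hm φ (mapGL ℚ ((hfT N ℓ hℓN).g γ i : SL(2,ℤ))) := by
  have h1 : Hm (TS ℓ φ) (mapGL ℚ (γ : SL(2,ℤ))) = ∑ i : OnePoint (ZMod ℓ),
      φ (rq ℓ i • OnePoint.infty) (rq ℓ i • (mapGL ℚ (γ : SL(2,ℤ)) • OnePoint.infty)) := by
    rw [Hm, TS_eq_rq, Finset.sum_apply, Finset.sum_apply]
    rfl
  have h2 : ∀ i, φ (rq ℓ i • OnePoint.infty) (rq ℓ i • (mapGL ℚ (γ : SL(2,ℤ)) • OnePoint.infty)) =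
      Hm φ (mapGL ℚ ((hfT N ℓ hℓN).g γ i : SL(2,ℤ))) +
        (φ OnePoint.infty (rq ℓ ((hfT N ℓ hℓN).s γ i) • OnePoint.infty) -
          φ OnePoint.infty (rq ℓ i • OnePoint.infty)) := by
    intro i
    rw [← mul_smul, spec_rat hℓN γ i, mul_smul]
    set g := mapGL ℚ ((hfT N ℓ hℓN).g γ i : SL(2,ℤ)) with hg
    have hinv : tr g φ = φ := h.inv _ ((hfT N ℓ hℓN).g γ i).2
    set α := rq ℓ i • (OnePoint.infty : Cusp)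
    set β := rq ℓ ((hfT N ℓ hℓN).s γ i) • (OnePoint.infty : Cusp)
    have h3 : φ (g • OnePoint.infty) (g • β) = φ OnePoint.infty β :=
      congrFun (congrFun hinv OnePoint.infty) β
    have h4 := h.ms α OnePoint.infty (g • β)
    have h5 := h.ms OnePoint.infty (g • OnePoint.infty) (g • β)
    rw [← h4, ← h5, h3, h.ms.swap OnePoint.infty α, Hm]
    abel
  rw [h1, Finset.sum_congr rfl fun i _ => h2 i, Finset.sum_add_distrib, Finset.sum_sub_distrib]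
  have h3 : ∑ i, φ OnePoint.infty (rq ℓ ((hfT N ℓ hℓN).s γ i) • OnePoint.infty) =
      ∑ i, φ OnePoint.infty (rq ℓ i • OnePoint.infty) :=
    Equiv.sum_comp ((hfT N ℓ hℓN).sE γ) (fun i => φ OnePoint.infty (rq ℓ i • OnePoint.infty))
  rw [h3, sub_self, add_zero]

end Fermat.Agent.Ihara
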