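import Fermat.Agent.Ihara.Cos

/-!
# Ihara's lemma, up to boundary symbols
-/

set_option autoImplicit false

noncomputable section

namespace Fermat.Agent.Ihara

open CongruenceSubgroup Matrix.SpecialLinearGroup
open scoped MatrixGroups
open Fermat.Agent.AnJac Fermat.Agent.AnJacH
open P2MW.S_ModularForm_heckeT_slash_eq_self_of_mem_Gamma0.ModularForm.HeckeSlashInvariance

variable {k : Type*} [AddCommGroup k] {N : ℕ}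

/-- integral unipotent -/
def Tz (b : ℤ) : SL(2,ℤ) := ⟨!![1, b; 0, 1], by rw [Matrix.det_fin_two_of]; ring⟩

lemma Tz_00 (b : ℤ) : Tz b 0 0 = 1 := rfl
lemma Tz_01 (b : ℤ) : Tz b 0 1 = b := rfl
lemma Tz_10 (b : ℤ) : Tz b 1 0 = 0 := rfl
lemma Tz_11 (b : ℤ) : Tz b 1 1 = 1 := rfl

lemma Tz_mem (b : ℤ) : Tz b ∈ Gamma0 N := by
  rw [Gamma0_mem, Tz_10]; simp

lemma Hm_Tz {φ : Cusp → Cusp → k} (h : IsMS φ) (b : ℤ) : Hm φ (mapGL ℚ (Tz b)) = 0 := by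
  have e : mapGL ℚ (Tz b) • (OnePoint.infty : Cusp) = OnePoint.infty := by
    rw [OnePoint.smul_infty_eq_self_iff, mapGL_10, Tz_10]; simp
  rw [Hm, e, h.self]

lemma Hm_mul {φ : Cusp → Cusp → k} (h : InSym N φ) {γ : SL(2,ℤ)} (hγ : γ ∈ Gamma0 N)
    (γ' : SL(2,ℤ)) : Hm φ (mapGL ℚ (γ * γ')) = Hm φ (mapGL ℚ γ) + Hm φ (mapGL ℚ γ') := by
  rw [map_mul]
  exact h.ms.hom (h.inv γ hγ) _ _

lemma mul_e (x y : SL(2,ℤ)) : (x * y) 0 0 = x 0 0 * y 0 0 + x 0 1 * y 1 0 ∧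
    (x * y) 0 1 = x 0 0 * y 0 1 + x 0 1 * y 1 1 ∧ (x * y) 1 0 = x 1 0 * y 0 0 + x 1 1 * y 1 0 ∧
    (x * y) 1 1 = x 1 0 * y 0 1 + x 1 1 * y 1 1 := by
  refine ⟨?_, ?_, ?_, ?_⟩ <;>
  rw [Matrix.SpecialLinearGroup.coe_mul, Matrix.mul_apply, Fin.sum_univ_two]

variable {ℓ : ℕ} [hℓ : Fact ℓ.Prime] (hℓN : ¬ ℓ ∣ N)

/-- the cocycle of `T_ℓ` for `ℓ ≡ 1` -/
lemma Hm_g {φ : Cusp → Cusp → k} (h : InSym N φ) {M : ℕ}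
    (h0 : ∀ γ ∈ Gamma M, γ ∈ Gamma0 N ∧ Hm φ (mapGL ℚ γ) = 0) (hℓM : ℓ ≡ 1 [MOD M])
    (γ : Gamma0 N) (i : OnePoint (ZMod ℓ)) :
    Hm φ (mapGL ℚ ((hfT N ℓ hℓN).g γ i : SL(2,ℤ))) = Hm φ (mapGL ℚ (γ : SL(2,ℤ))) := by
  set g : SL(2,ℤ) := ((hfT N ℓ hℓN).g γ i : SL(2,ℤ)) with hg
  have hg0 : g ∈ Gamma0 N := ((hfT N ℓ hℓN).g γ i).2
  set j := (hfT N ℓ hℓN).s γ i with hj
  set x : SL(2,ℤ) := Tz (-eb ℓ i) * (g * Tz (eb ℓ j)) with hx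
  have hx0 : x ∈ Gamma0 N := mul_mem (Tz_mem _) (mul_mem hg0 (Tz_mem _))
  have e1 : Hm φ (mapGL ℚ x) = Hm φ (mapGL ℚ g) := by
    rw [hx, Hm_mul h (Tz_mem _), Hm_mul h hg0, Hm_Tz h.ms, Hm_Tz h.ms, zero_add, add_zero]
  -- congruence
  have hℓ1 : ((ℓ : ℤ) : ZMod M) = 1 := by
    have := (ZMod.natCast_eq_natCast_iff _ _ _).mpr hℓM
    push_cast at this ⊢
    exact this
  have ha : ∀ i, ((ea ℓ i : ℤ) : ZMod M) = 1 := by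
    intro i
    induction i using OnePoint.rec with
    | infty => exact hℓ1
    | coe x => exact Int.cast_one
  have hd : ∀ i, ((ed ℓ i : ℤ) : ZMod M) = 1 := by
    intro i
    induction i using OnePoint.rec with
    | infty => exact Int.cast_one
    | coe x => exact hℓ1
  obtain ⟨s1, s2, s3, s4⟩ := spec_int hℓN γ i
  rw [← hg, ← hj] at s1 s2 s3 s4
  have t1 := congrArg (fun z : ℤ => (z : ZMod M)) s1
  have t2 := congrArg (fun z : ℤ => (z : ZMod M)) s2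
  have t3 := congrArg (fun z : ℤ => (z : ZMod M)) s3
  have t4 := congrArg (fun z : ℤ => (z : ZMod M)) s4
  push_cast at t1 t2 t3 t4
  rw [ha, ha] at t1
  rw [ha, hd] at t2
  rw [hd, ha] at t3
  rw [hd, hd] at t4
  obtain ⟨m1, m2, m3, m4⟩ := mul_e g (Tz (eb ℓ j))
  obtain ⟨n1, n2, n3, n4⟩ := mul_e (Tz (-eb ℓ i)) (g * Tz (eb ℓ j))
  rw [Tz_00, Tz_10] at m1 m3
  rw [Tz_01, Tz_11] at m2 m4
  rw [Tz_00, Tz_01, m1, m3] at n1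
  rw [Tz_00, Tz_01, m2, m4] at n2
  rw [Tz_10, Tz_11, m1, m3] at n3
  rw [Tz_10, Tz_11, m2, m4] at n4
  have hmap : Matrix.SpecialLinearGroup.map (Int.castRingHom (ZMod M)) x =
      Matrix.SpecialLinearGroup.map (Int.castRingHom (ZMod M)) (γ : SL(2,ℤ)) := by
    ext a b
    fin_cases a <;> fin_cases b
    · change ((x 0 0 : ℤ) : ZMod M) = (((γ : SL(2,ℤ)) 0 0 : ℤ) : ZMod M)
      rw [hx, n1]
      push_cast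
      linear_combination -t1 + (eb ℓ i : ZMod M) * t3
    · change ((x 0 1 : ℤ) : ZMod M) = (((γ : SL(2,ℤ)) 0 1 : ℤ) : ZMod M)
      rw [hx, n2]
      push_cast
      linear_combination -t2 + (eb ℓ i : ZMod M) * t4
    · change ((x 1 0 : ℤ) : ZMod M) = (((γ : SL(2,ℤ)) 1 0 : ℤ) : ZMod M)
      rw [hx, n3]
      push_cast
      linear_combination -t3
    · change ((x 1 1 : ℤ) : ZMod M) = (((γ : SL(2,ℤ)) 1 1 : ℤ) : ZMod M)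
      rw [hx, n4]
      push_cast
      linear_combination -t4
  have hxγ : x * (γ : SL(2,ℤ))⁻¹ ∈ Gamma M := by
    rw [Gamma_mem', map_mul, map_inv, hmap, mul_inv_cancel]
  obtain ⟨h1, h2⟩ := h0 _ hxγ
  have e2 : Hm φ (mapGL ℚ x) = Hm φ (mapGL ℚ (γ : SL(2,ℤ))) := by
    have e3 : x = x * (γ : SL(2,ℤ))⁻¹ * (γ : SL(2,ℤ)) := by group
    conv_lhs => rw [e3, Hm_mul h h1, h2, zero_add]
  rw [← e1, e2]

/-- **C6**, first half -/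
theorem Hm_ES {φ : Cusp → Cusp → k} (h : InSym N φ) {M : ℕ}
    (h0 : ∀ γ ∈ Gamma M, γ ∈ Gamma0 N ∧ Hm φ (mapGL ℚ γ) = 0) (hℓM : ℓ ≡ 1 [MOD M])
    (hℓN : ¬ ℓ ∣ N) (γ : Gamma0 N) : Hm (ES ℓ φ) (mapGL ℚ (γ : SL(2,ℤ))) = 0 := by
  have e1 : Hm (ES ℓ φ) (mapGL ℚ (γ : SL(2,ℤ))) = Hm (TS ℓ φ) (mapGL ℚ (γ : SL(2,ℤ))) -
      (ℓ + 1) • Hm φ (mapGL ℚ (γ : SL(2,ℤ))) := rfl
  have hcard : Fintype.card (OnePoint (ZMod ℓ)) = ℓ + 1 :=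
    (Fintype.card_option (α := ZMod ℓ)).trans (by rw [ZMod.card])
  rw [e1, Hm_TS hℓN h, Finset.sum_congr rfl fun i _ => Hm_g hℓN h h0 hℓM γ i, Finset.sum_const,
    Finset.card_univ, hcard, sub_self]

lemma mapGL_mem_GM {M q : ℕ} {γ : SL(2,ℤ)} (hγ : γ ∈ Gamma M) : mapGL ℚ γ ∈ GM q M := by
  rw [Gamma_mem] at hγ
  obtain ⟨h1, h2, h3, h4⟩ := hγ
  have key : ∀ z : ℤ, ((z : ℤ) : ZMod M) = 0 → (z : ℚ) ∈ IA q M := fun z hz =>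
    int_mem_of_dvd ((ZMod.intCast_zmod_eq_zero_iff_dvd _ _).mp hz)
  refine ⟨dt_mapGL γ, ?_, ?_, ?_, ?_⟩
  · rw [mapGL_00]
    have := key (γ 0 0 - 1) (by push_cast; rw [h1, sub_self])
    push_cast at this
    exact this
  · rw [mapGL_01]; exact key _ h2
  · rw [mapGL_10]; exact key _ h3
  · rw [mapGL_11]
    have := key (γ 1 1 - 1) (by push_cast; rw [h4, sub_self])
    push_cast at this
    exact this

lemma Gamma_le_Gamma0' {M : ℕ} (h : N ∣ M) {γ : SL(2,ℤ)} (hγ : γ ∈ Gamma M) : γ ∈ Gamma0 N := by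
  rw [Gamma_mem] at hγ
  rw [Gamma0_mem, ZMod.intCast_zmod_eq_zero_iff_dvd]
  exact (Int.natCast_dvd_natCast.mpr h).trans ((ZMod.intCast_zmod_eq_zero_iff_dvd _ _).mp hγ.2.2.1)

/-- Ihara's lemma up to boundary symbols -/
theorem ihara_hom (hNT : NTLemma) {q : ℕ} (hq : q.Prime) (hN : N ≠ 0) (hqN : ¬ q ∣ N) {k : Type}
    [AddCommGroup k] {φ ψ : Cusp → Cusp → k} (hφ : InSym N φ) (hψ : InSym N ψ)
    (h : φ = - tr (um q 0 1) ψ) {ℓ : ℕ} (hℓ : ℓ.Prime) (hℓN : ¬ ℓ ∣ N) :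
    ∃ M : ℕ, M ≠ 0 ∧ N ∣ M ∧ ∀ ℓ' : ℕ, ℓ'.Prime → ℓ' ≡ 1 [MOD M] → ¬ ℓ' ∣ N →
      InSym N (ES ℓ' (FS ℓ φ)) ∧
        ∀ γ : Gamma0 N, Hm (ES ℓ' (FS ℓ φ)) (mapGL ℚ (γ : SL(2,ℤ))) = 0 := by
  have hG := inv_G0 hq hN hqN hφ hψ h
  obtain ⟨M, hM0, hqM, hNM, hM⟩ := c5 hNT hq hN hqN hφ.ms hG hℓ.ne_zero
  have : Fact ℓ.Prime := ⟨hℓ⟩
  refine ⟨M, hM0, hNM, fun ℓ' hℓ' hℓ'M hℓ'N => ?_⟩
  have : Fact ℓ'.Prime := ⟨hℓ'⟩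
  have hF := hφ.FS hℓN
  exact ⟨hF.ES hℓ'N, fun γ => Hm_ES hF (fun γ hγ => ⟨Gamma_le_Gamma0' hNM hγ,
    hM _ (mapGL_mem_GM hγ)⟩) hℓ'M hℓ'N γ⟩

end Fermat.Agent.Ihara
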