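import Mathlib.Topology.Compactification.OnePoint.ProjectiveLine
import Mathlib.NumberTheory.ModularForms.CongruenceSubgroups
import Mathlib.LinearAlgebra.Matrix.GeneralLinearGroup.FinTwo

/-!
# Ihara's lemma: definitions and statements

Modular symbols with values in an abelian group `k`: functions `φ : Cusp → Cusp → k` with
`φ α β + φ β γ = φ α γ`, where `Cusp = ℙ¹(ℚ)`, with the action of `GL₂(ℚ)`.
-/

set_option autoImplicit false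

noncomputable section

namespace Fermat.Agent.Ihara

open CongruenceSubgroup Matrix.SpecialLinearGroup
open scoped MatrixGroups

/-- cusps -/
abbrev Cusp := OnePoint ℚ

variable {k : Type*} [AddCommGroup k]

/-- modular symbols -/
def IsMS (φ : Cusp → Cusp → k) : Prop := ∀ α β γ, φ α β + φ β γ = φ α γ

/-- action of `GL₂(ℚ)` (right action: `tr (g * h) φ = tr h (tr g φ)`) -/
def tr (g : GL (Fin 2) ℚ) (φ : Cusp → Cusp → k) : Cusp → Cusp → k := fun α β => φ (g • α) (g • β)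

/-- `Sym(N,k)`: modular symbols invariant under `Γ₀(N)` -/
structure InSym (N : ℕ) (φ : Cusp → Cusp → k) : Prop where
  ms : IsMS φ
  inv : ∀ γ ∈ Gamma0 N, tr (mapGL ℚ γ) φ = φ

/-- the matrix `(a, b; 0, d)` as an element of `GL₂(ℚ)` -/
def um (a b d : ℚ) : GL (Fin 2) ℚ :=
  if h : a * d ≠ 0 then Matrix.GeneralLinearGroup.mkOfDetNeZero !![a, b; 0, d]
    (by rw [Matrix.det_fin_two_of]; simpa using h) else 1

lemma coe_um {a b d : ℚ} (h : a * d ≠ 0) :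
    ((um a b d : GL (Fin 2) ℚ) : Matrix (Fin 2) (Fin 2) ℚ) = !![a, b; 0, d] := by
  rw [um, dif_pos h]
  rfl

/-- the Hecke operator `T_ℓ` (for `ℓ ∤ N`) on modular symbols -/
def TS (ℓ : ℕ) (φ : Cusp → Cusp → k) : Cusp → Cusp → k :=
  tr (um ℓ 0 1) φ + ∑ j ∈ Finset.range ℓ, tr (um 1 j ℓ) φ

/-- `T_ℓ - ℓ - 1` -/
def ES (ℓ : ℕ) (φ : Cusp → Cusp → k) : Cusp → Cusp → k := TS ℓ φ - (ℓ + 1) • φ

/-- `T_ℓ² - (ℓ + 1)²` -/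
def FS (ℓ : ℕ) (φ : Cusp → Cusp → k) : Cusp → Cusp → k := TS ℓ (TS ℓ φ) - ((ℓ + 1) ^ 2) • φ

/-- **(I1)** -/
def NTLemma : Prop :=
  ∀ (q : ℕ), q.Prime → ∀ (R : Finset ℕ), (∀ r ∈ R, r.Prime ∧ r ≠ q) →
    ∀ (m : ℕ), 0 < m → ¬ q ∣ m → (∀ r ∈ R, r ∣ m) →
    ∀ a : ℤ, IsCoprime a (m : ℤ) → (∀ r ∈ R, (r : ℤ) ∣ a - 1) →
    ∃ (a' : ℕ) (s : ℕ), 0 < a' ∧ (m : ℤ) ∣ (a' : ℤ) - a ∧ 0 < s ∧ (∀ r ∈ R, ¬ r ∣ s) ∧
      a' ∣ q ^ s - 1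

/-- **(I2)** Ihara's lemma: for `ψ, φ ∈ Sym(N,k)` with `φ = - ψ | diag(q,1)` and a prime
`ℓ ∤ N q` the symbol `φ` is killed by `(T_ℓ' - ℓ' - 1)² (T_ℓ² - (ℓ+1)²)` for every prime
`ℓ' ≡ 1 mod M'`, with `M'` depending on `φ` and `ℓ` -/
def IharaStatement : Prop :=
  ∀ (N q : ℕ), N ≠ 0 → q.Prime → ¬ q ∣ N → ∀ (k : Type) [AddCommGroup k]
    (φ ψ : Cusp → Cusp → k), InSym N φ → InSym N ψ → φ = - tr (um q 0 1) ψ →
    ∀ ℓ : ℕ, ℓ.Prime → ¬ ℓ ∣ N → ∃ M' : ℕ, M' ≠ 0 ∧ ∀ ℓ' : ℕ, ℓ'.Prime → ℓ' ≡ 1 [MOD M'] →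
      ES ℓ' (ES ℓ' (FS ℓ φ)) = 0

end Fermat.Agent.Ihara
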