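import Fermat.Agent.Ihara.VM3

/-!
# Generation of `Γ₀(N)[1/q]`
-/

set_option autoImplicit false

noncomputable section

namespace Fermat.Agent.Ihara

open CongruenceSubgroup Matrix.SpecialLinearGroup
open scoped MatrixGroups

variable {q N : ℕ}

lemma mapGL_00 (γ : SL(2,ℤ)) : (mapGL ℚ γ) 0 0 = (γ 0 0 : ℚ) := by simp
lemma mapGL_01 (γ : SL(2,ℤ)) : (mapGL ℚ γ) 0 1 = (γ 0 1 : ℚ) := by simp
lemma mapGL_10 (γ : SL(2,ℤ)) : (mapGL ℚ γ) 1 0 = (γ 1 0 : ℚ) := by simp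
lemma mapGL_11 (γ : SL(2,ℤ)) : (mapGL ℚ γ) 1 1 = (γ 1 1 : ℚ) := by simp

lemma dt_mapGL (γ : SL(2,ℤ)) : dt (mapGL ℚ γ) = 1 := by
  have := Matrix.SpecialLinearGroup.det_coe γ
  rw [Matrix.det_fin_two] at this
  rw [dt, mapGL_00, mapGL_01, mapGL_10, mapGL_11]
  exact_mod_cast this

lemma exists_SL4 {a b c d : ℤ} (h : a * d - b * c = 1) : ∃ γ : SL(2,ℤ), γ 0 0 = a ∧ γ 0 1 = b ∧
    γ 1 0 = c ∧ γ 1 1 = d :=
  ⟨⟨!![a, b; c, d], by rw [Matrix.det_fin_two_of]; exact h⟩, rfl, rfl, rfl, rfl⟩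

/-- integral matrices -/
lemma exists_SL {x : GL (Fin 2) ℚ} (hx : dt x = 1) {a b c d : ℤ} (ha : x 0 0 = a) (hb : x 0 1 = b)
    (hc : x 1 0 = c) (hd : x 1 1 = d) : ∃ γ : SL(2,ℤ), x = mapGL ℚ γ ∧ γ 0 0 = a ∧ γ 0 1 = b ∧
      γ 1 0 = c ∧ γ 1 1 = d := by
  rw [dt, ha, hb, hc, hd] at hx
  obtain ⟨γ, h00, h01, h10, h11⟩ := exists_SL4 (a := a) (b := b) (c := c) (d := d)
    (by exact_mod_cast hx)
  refine ⟨γ, ?_, h00, h01, h10, h11⟩
  apply gl_ext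
  · rw [mapGL_00, ha, h00]
  · rw [mapGL_01, hb, h01]
  · rw [mapGL_10, hc, h10]
  · rw [mapGL_11, hd, h11]

lemma Dg_mul {u v : ℚ} (hu : u ≠ 0) (hv : v ≠ 0) : Dg (u * v) = Dg u * Dg v := by
  have huv := mul_ne_zero hu hv
  apply gl_ext
  · rw [mul_00, Dg_00 huv, Dg_00 hu, Dg_00 hv, Dg_01 hu]; ring
  · rw [mul_01, Dg_01 huv, Dg_01 hu, Dg_01 hv, Dg_00 hu]; ring
  · rw [mul_10, Dg_10 huv, Dg_10 hu, Dg_10 hv, Dg_11 hu]; ring
  · rw [mul_11, Dg_11 huv, Dg_11 hu, Dg_11 hv, Dg_10 hu, mul_inv]; ring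

lemma Dg_one : Dg 1 = 1 := by
  apply gl_ext
  · rw [Dg_00 one_ne_zero]; simp
  · rw [Dg_01 one_ne_zero]; simp
  · rw [Dg_10 one_ne_zero]; simp
  · rw [Dg_11 one_ne_zero]; simp

lemma Dg_zpow_mem {u : ℚ} (hu : u ≠ 0) {H : Subgroup (GL (Fin 2) ℚ)} (h : Dg u ∈ H) (e : ℤ) :
    Dg (u ^ e) ∈ H := by
  have hn : ∀ n : ℕ, Dg (u ^ n) ∈ H := by
    intro n
    induction n with
    | zero => rw [pow_zero, Dg_one]; exact one_mem _
    | succ n ih => rw [pow_succ, Dg_mul (pow_ne_zero _ hu) hu]; exact mul_mem ih h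
  obtain ⟨n, rfl | rfl⟩ := Int.eq_nat_or_neg e
  · rw [zpow_natCast]; exact hn n
  · have h1 : Dg (u ^ (-(n : ℤ))) * Dg (u ^ n) = 1 := by
      rw [← Dg_mul (zpow_ne_zero _ hu) (pow_ne_zero _ hu), zpow_neg, zpow_natCast,
        inv_mul_cancel₀ (pow_ne_zero _ hu), Dg_one]
    rw [eq_inv_of_mul_eq_one_left h1]
    exact inv_mem (hn n)

/-- a subgroup containing `Γ₀(N)` and its conjugate contains `Γ₀(N)[1/q]` -/
theorem G0_le (hq : q.Prime) (hN : N ≠ 0) (hqN : ¬ q ∣ N) {H : Subgroup (GL (Fin 2) ℚ)}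
    (h1 : ∀ γ ∈ Gamma0 N, mapGL ℚ γ ∈ H)
    (h2 : ∀ γ ∈ Gamma0 N, (um q 0 1)⁻¹ * mapGL ℚ γ * um q 0 1 ∈ H) : G0 q N ≤ H := by
  have hq0 : (q : ℚ) ≠ 0 := by exact_mod_cast hq.ne_zero
  have hqc : q.Coprime N := (Nat.Prime.coprime_iff_not_dvd hq).mpr hqN
  -- integral elements
  have hint : ∀ x : GL (Fin 2) ℚ, dt x = 1 → ∀ a b c d : ℤ, x 0 0 = a → x 0 1 = b → x 1 0 = c →
      x 1 1 = d → (N : ℤ) ∣ c → x ∈ H := by
    intro x hx a b c d ha hb hc hd hcN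
    obtain ⟨γ, rfl, -, -, h10, -⟩ := exists_SL hx ha hb hc hd
    refine h1 γ ?_
    rw [Gamma0_mem, h10, ZMod.intCast_zmod_eq_zero_iff_dvd]
    exact hcN
  have hUint : ∀ z : ℤ, U z ∈ H := fun z => hint (U z) (dt_U _) 1 z 0 1 (by rw [U_00]; simp)
    (U_01 _) (by rw [U_10]; simp) (by rw [U_11]; simp) (dvd_zero _)
  -- `U (1/q)`
  have hU1 : U ((q : ℚ)⁻¹) ∈ H := by
    obtain ⟨γ, g00, g01, g10, g11⟩ := exists_SL4 (a := 1) (b := 1) (c := 0) (d := 1) (by norm_num)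
    have hT : (mapGL ℚ γ) = U 1 := by
      apply gl_ext
      · rw [mapGL_00, U_00, g00]; simp
      · rw [mapGL_01, U_01, g01]; simp
      · rw [mapGL_10, U_10, g10]; simp
      · rw [mapGL_11, U_11, g11]; simp
    have h3 := h2 γ (by rw [Gamma0_mem, g10]; simp)
    rw [hT] at h3
    have e : (um q 0 1)⁻¹ * U 1 * um q 0 1 = U ((q : ℚ)⁻¹) := by
      rw [mul_assoc, inv_mul_eq_iff_eq_mul]
      have hh : (q : ℚ) * 1 ≠ 0 := by simpa using hq0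
      have m00 : (um q 0 1 : GL (Fin 2) ℚ) 0 0 = q := by rw [coe_um hh]; rfl
      have m01 : (um q 0 1 : GL (Fin 2) ℚ) 0 1 = 0 := by rw [coe_um hh]; rfl
      have m10 : (um q 0 1 : GL (Fin 2) ℚ) 1 0 = 0 := by rw [coe_um hh]; rfl
      have m11 : (um q 0 1 : GL (Fin 2) ℚ) 1 1 = 1 := by rw [coe_um hh]; rfl
      apply gl_ext
      · rw [mul_00, mul_00, m00, m01, m10, U_00, U_01, U_00, U_10]; ring
      · rw [mul_01, mul_01, m00, m01, m11, U_00, U_01, U_01, U_11]; field_simp; ring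
      · rw [mul_10, mul_10, m00, m10, m11, U_10, U_11, U_00, U_10]; ring
      · rw [mul_11, mul_11, m01, m10, m11, U_10, U_11, U_01, U_11]; ring
    rwa [e] at h3
  -- an element with denominators
  have hL : Lo N ∈ H := hint (Lo N) (dt_Lo _) 1 0 N 1 (by rw [Lo_00]; simp) (by rw [Lo_01]; simp)
    (by rw [Lo_10]; simp) (by rw [Lo_11]; simp) dvd_rfl
  obtain ⟨P, hP, b, hb, hP00, hP01, hP10, hP11⟩ : ∃ P ∈ H, ∃ b : ℚ, b ∈ IA q 1 ∧ P 0 0 = q ∧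
      P 0 1 = b ∧ P 1 0 = 0 ∧ P 1 1 = (q : ℚ)⁻¹ := by
    have hcop : IsCoprime ((q : ℤ) * N) ((N : ℤ) + q) := by
      have h3 : IsCoprime (q : ℤ) (N : ℤ) := Nat.isCoprime_iff_coprime.mpr hqc
      refine IsCoprime.mul_left ?_ ?_
      · have := h3.add_mul_left_right 1
        rwa [mul_one] at this
      · have := h3.symm.mul_add_left_right 1
        rwa [mul_one] at this
    obtain ⟨u, v, huv⟩ := hcop
    obtain ⟨γ, g00, g01, g10, g11⟩ := exists_SL4 (a := (N : ℤ) + q) (b := u) (c := -(q * N)) (d := v)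
      (by linear_combination huv)
    have hγ : mapGL ℚ γ ∈ H := by
      refine h1 γ ?_
      rw [Gamma0_mem, g10, ZMod.intCast_zmod_eq_zero_iff_dvd]
      exact ⟨-q, by ring⟩
    have huv' : (u : ℚ) * (q * N) + v * (N + q) = 1 := by exact_mod_cast huv
    refine ⟨Lo N * U ((q : ℚ)⁻¹) * mapGL ℚ γ, mul_mem (mul_mem hL hU1) hγ, u + v * (q : ℚ)⁻¹,
      ?_, ?_, ?_, ?_, ?_⟩
    · have := qinv_mem hq.ne_zero 1
      rw [pow_one] at this
      exact add_mem (int_mem_IA q u) (IA_mul_left (int_mem_IA q v) this)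
    · rw [mul_00, mul_00, mul_01, mapGL_00, mapGL_10, g00, g10, Lo_00, Lo_01, U_00, U_01, U_10, U_11]
      push_cast; field_simp; ring
    · rw [mul_01, mul_00, mul_01, mapGL_01, mapGL_11, g01, g11, Lo_00, Lo_01, U_00, U_01, U_10, U_11]
      push_cast; ring
    · rw [mul_10, mul_10, mul_11, mapGL_00, mapGL_10, g00, g10, Lo_10, Lo_11, U_00, U_01, U_10, U_11]
      push_cast; field_simp; ring
    · rw [mul_11, mul_10, mul_11, mapGL_01, mapGL_11, g01, g11, Lo_10, Lo_11, U_00, U_01, U_10, U_11]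
      field_simp
      linear_combination huv'
  -- all the unipotent elements
  have hUq : ∀ (n : ℕ) (z : ℤ), U ((z : ℚ) * ((q : ℚ) ^ (2 * n))⁻¹) ∈ H := by
    intro n
    induction n with
    | zero => intro z; simpa using hUint z
    | succ n ih =>
      intro z
      have h3 := mul_mem (mul_mem (inv_mem hP) (ih z)) hP
      have e : P⁻¹ * U ((z : ℚ) * ((q : ℚ) ^ (2 * n))⁻¹) * P =
          U ((z : ℚ) * ((q : ℚ) ^ (2 * (n + 1)))⁻¹) := by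
        rw [mul_assoc, inv_mul_eq_iff_eq_mul]
        have e2 : (q : ℚ) ^ (2 * (n + 1)) = (q : ℚ) ^ (2 * n) * (q * q) := by
          rw [show 2 * (n + 1) = 2 * n + 2 by ring, pow_add]; ring
        have hqn : (q : ℚ) ^ (2 * n) ≠ 0 := pow_ne_zero _ hq0
        apply gl_ext
        · rw [mul_00, mul_00, hP00, hP01, hP10, U_00, U_01, U_00, U_10]; ring
        · rw [mul_01, mul_01, hP00, hP01, hP11, U_00, U_01, U_01, U_11, e2]; field_simp; ring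
        · rw [mul_10, mul_10, hP00, hP10, hP11, U_10, U_11, U_00, U_10]; ring
        · rw [mul_11, mul_11, hP01, hP10, hP11, U_10, U_11, U_01, U_11]; ring
      rwa [e] at h3
  have hUA : ∀ y ∈ IA q 1, U y ∈ H := by
    rintro y ⟨n, z, h⟩
    have hqn : (q : ℚ) ^ n ≠ 0 := pow_ne_zero _ hq0
    have e : y = ((z * q ^ n : ℤ) : ℚ) * ((q : ℚ) ^ (2 * n))⁻¹ := by
      rw [Nat.cast_one, one_mul] at h
      rw [two_mul, pow_add]
      push_cast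
      rw [← h]
      field_simp
    rw [e]
    exact hUq n _
  have hD : Dg q ∈ H := by
    have hbq : -b * (q : ℚ)⁻¹ ∈ IA q 1 := by
      have := qinv_mem hq.ne_zero 1
      rw [pow_one] at this
      exact IA_mul_left (neg_mem hb) this
    have h3 := mul_mem hP (hUA _ hbq)
    have e : P * U (-b * (q : ℚ)⁻¹) = Dg q := by
      apply gl_ext
      · rw [mul_00, hP00, hP01, U_00, U_10, Dg_00 hq0]; ring
      · rw [mul_01, hP00, hP01, U_01, U_11, Dg_01 hq0]; field_simp; ring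
      · rw [mul_10, hP10, hP11, U_00, U_10, Dg_10 hq0]; ring
      · rw [mul_11, hP10, hP11, U_01, U_11, Dg_11 hq0]; ring
    rwa [e] at h3
  -- the general element
  intro x hx
  obtain ⟨hx0, x1, x2, x3, x4⟩ := hx
  obtain ⟨n₀, C, hC⟩ := x3
  obtain ⟨n₁, D, hDd⟩ := x4
  obtain ⟨n₂, A, hA⟩ := x1
  obtain ⟨n₃, B, hB⟩ := x2
  rw [Nat.cast_one, one_mul] at hDd hA hB
  -- common denominators
  set n := n₀ + n₁ with hn
  set C' : ℤ := q ^ n₁ * (N * C) with hC'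
  set D' : ℤ := q ^ n₀ * D with hD'
  have hc' : (q : ℚ) ^ n * x 1 0 = C' := by
    rw [hn, hC', pow_add]; push_cast; linear_combination (q : ℚ) ^ n₁ * hC
  have hd' : (q : ℚ) ^ n * x 1 1 = D' := by
    rw [hn, hD', pow_add]; push_cast; linear_combination (q : ℚ) ^ n₀ * hDd
  have hdet : x 0 0 * x 1 1 - x 0 1 * x 1 0 = 1 := hx0
  have hrel : (q : ℤ) ^ n₃ * A * D' - (q : ℤ) ^ n₂ * B * C' = (q : ℤ) ^ (n₂ + n₃ + n) := by
    have : ((q : ℤ) ^ n₃ * A * D' - (q : ℤ) ^ n₂ * B * C' : ℚ) = (q : ℚ) ^ (n₂ + n₃ + n) := by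
      rw [← hc', ← hd', ← hA, ← hB, pow_add, pow_add]
      push_cast
      linear_combination ((q : ℚ) ^ n₂ * (q : ℚ) ^ n₃ * (q : ℚ) ^ n) * hdet
    exact_mod_cast this
  have hgcd : Int.gcd C' D' ∣ q ^ (n₂ + n₃ + n) := by
    have h3 : ((Int.gcd C' D' : ℕ) : ℤ) ∣ (q : ℤ) ^ (n₂ + n₃ + n) := by
      rw [← hrel]
      exact dvd_sub ((Int.gcd_dvd_right _ _).mul_left _) ((Int.gcd_dvd_left _ _).mul_left _)
    have h4 : ((q : ℤ) ^ (n₂ + n₃ + n)) = ((q ^ (n₂ + n₃ + n) : ℕ) : ℤ) := by push_cast; ring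
    rw [h4] at h3
    exact Int.natCast_dvd_natCast.mp h3
  obtain ⟨j, -, hj⟩ := (Nat.dvd_prime_pow hq).mp hgcd
  obtain ⟨C₁, hC₁⟩ : ((q ^ j : ℕ) : ℤ) ∣ C' := by rw [← hj]; exact Int.gcd_dvd_left _ _
  obtain ⟨D₁, hD₁⟩ : ((q ^ j : ℕ) : ℤ) ∣ D' := by rw [← hj]; exact Int.gcd_dvd_right _ _
  have hqj : ((q ^ j : ℕ) : ℤ) ≠ 0 := by exact_mod_cast pow_ne_zero _ hq.ne_zero
  have hcop1 : IsCoprime C₁ D₁ := by
    rw [Int.isCoprime_iff_gcd_eq_one]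
    have h3 : Int.gcd C' D' = q ^ j * Int.gcd C₁ D₁ := by
      rw [hC₁, hD₁, Int.gcd_mul_left]; simp
    rw [hj] at h3
    have h4 : 0 < q ^ j := Nat.pos_of_ne_zero (pow_ne_zero _ hq.ne_zero)
    exact (Nat.eq_of_mul_eq_mul_left h4 (by rw [mul_one]; exact h3)).symm
  have hNC : (N : ℤ) ∣ C₁ := by
    have h3 : (N : ℤ) ∣ ((q ^ j : ℕ) : ℤ) * C₁ := by
      rw [← hC₁, hC']; exact ⟨q ^ n₁ * C, by ring⟩
    have h4 : IsCoprime (N : ℤ) ((q ^ j : ℕ) : ℤ) := by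
      push_cast
      exact (Nat.isCoprime_iff_coprime.mpr hqc.symm).pow_right
    exact h4.dvd_of_dvd_mul_left h3
  obtain ⟨y, w, hyw⟩ := hcop1
  obtain ⟨γ, g00, g01, g10, g11⟩ := exists_SL4 (a := D₁) (b := y) (c := -C₁) (d := w)
    (by linear_combination hyw)
  have hγ0 : γ ∈ Gamma0 N := by
    rw [Gamma0_mem, g10, ZMod.intCast_zmod_eq_zero_iff_dvd]
    exact hNC.neg_right
  have hγ : mapGL ℚ γ ∈ H := h1 γ hγ0
  have hyw' : (y : ℚ) * C₁ + w * D₁ = 1 := by exact_mod_cast hyw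
  have hC1' : (C' : ℚ) = (q : ℚ) ^ j * C₁ := by rw [hC₁]; push_cast; ring
  have hD1' : (D' : ℚ) = (q : ℚ) ^ j * D₁ := by rw [hD₁]; push_cast; ring
  have hqn : (q : ℚ) ^ n ≠ 0 := pow_ne_zero _ hq0
  have hqj' : (q : ℚ) ^ j ≠ 0 := pow_ne_zero _ hq0
  set e : ℤ := (n : ℤ) - j with he
  have hqe : (q : ℚ) ^ e ≠ 0 := zpow_ne_zero _ hq0
  have hqe2 : (q : ℚ) ^ e * (q : ℚ) ^ j = (q : ℚ) ^ n := by
    rw [he, zpow_sub₀ hq0, zpow_natCast, zpow_natCast]; field_simp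
  -- entries of `x γ`
  have h10 : (x * mapGL ℚ γ) 1 0 = 0 := by
    rw [mul_10, mapGL_00, mapGL_10, g00, g10]
    apply mul_left_cancel₀ hqn
    push_cast
    rw [mul_zero, mul_add, ← mul_assoc, ← mul_assoc, hc', hd', hC1', hD1']
    ring
  have h11 : (x * mapGL ℚ γ) 1 1 = ((q : ℚ) ^ e)⁻¹ := by
    rw [mul_11, mapGL_01, mapGL_11, g01, g11]
    refine eq_inv_of_mul_eq_one_left ?_
    apply mul_right_cancel₀ hqj'
    have e1 : x 1 0 * y * ((q : ℚ) ^ e * (q : ℚ) ^ j) + x 1 1 * w * ((q : ℚ) ^ e * (q : ℚ) ^ j) =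
        (q : ℚ) ^ j := by
      rw [hqe2]
      linear_combination (y : ℚ) * hc' + (w : ℚ) * hd' + (y : ℚ) * hC1' + (w : ℚ) * hD1' +
        (q : ℚ) ^ j * hyw'
    linear_combination e1
  have hdet2 : dt (x * mapGL ℚ γ) = 1 := by rw [dt_mul, hx0, dt_mapGL, one_mul]
  have h00 : (x * mapGL ℚ γ) 0 0 = (q : ℚ) ^ e := by
    have := hdet2
    rw [dt, h10, h11, mul_zero, sub_zero] at this
    field_simp at this
    exact this
  have h01 : (x * mapGL ℚ γ) 0 1 ∈ IA q 1 := by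
    rw [mul_01]
    refine add_mem (IA_mul_left ⟨n₂, A, by rw [Nat.cast_one, one_mul]; exact hA⟩ ?_)
      (IA_mul_left ⟨n₃, B, by rw [Nat.cast_one, one_mul]; exact hB⟩ ?_)
    · rw [mapGL_01]; exact int_mem_IA q _
    · rw [mapGL_11]; exact int_mem_IA q _
  have hzA : ∀ e : ℤ, (q : ℚ) ^ e ∈ IA q 1 := by
    intro e
    obtain ⟨a, rfl | rfl⟩ := Int.eq_nat_or_neg e
    · rw [zpow_natCast]; exact qpow_mem q a
    · rw [zpow_neg, zpow_natCast]; exact qinv_mem hq.ne_zero a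
  have hxγ : x * mapGL ℚ γ ∈ H := by
    have e2 : x * mapGL ℚ γ = Dg ((q : ℚ) ^ e) * U ((x * mapGL ℚ γ) 0 1 * (q : ℚ) ^ (-e)) := by
      have hinv : (q : ℚ) ^ (-e) = ((q : ℚ) ^ e)⁻¹ := zpow_neg _ _
      apply gl_ext
      · rw [mul_00 (Dg _), Dg_00 hqe, Dg_01 hqe, U_00, U_10, h00]; ring
      · rw [mul_01 (Dg _), Dg_00 hqe, Dg_01 hqe, U_01, U_11, hinv]; field_simp; ring
      · rw [mul_10 (Dg _), Dg_10 hqe, Dg_11 hqe, U_00, U_10, h10]; ring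
      · rw [mul_11 (Dg _), Dg_10 hqe, Dg_11 hqe, U_01, U_11, h11]; ring
    rw [e2]
    exact mul_mem (Dg_zpow_mem hq0 hD e) (hUA _ (IA_mul_left h01 (hzA _)))
  have := mul_mem hxγ (inv_mem hγ)
  rwa [mul_inv_cancel_right] at this

variable {k : Type*} [AddCommGroup k]

/-- the stabilizer of a symbol -/
def Stb (φ : Cusp → Cusp → k) : Subgroup (GL (Fin 2) ℚ) where
  carrier := {g | tr g φ = φ}
  one_mem' := tr_one φ
  mul_mem' := by
    intro g h hg hh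
    change tr (g * h) φ = φ
    rw [tr_mul, hg, hh]
  inv_mem' := by
    intro g hg
    change tr g⁻¹ φ = φ
    have h1 : tr (g * g⁻¹) φ = tr g⁻¹ (tr g φ) := tr_mul _ _ _
    rw [mul_inv_cancel, tr_one, hg] at h1
    exact h1.symm

/-- invariance under `Γ₀(N)[1/q]` -/
theorem inv_G0 (hq : q.Prime) (hN : N ≠ 0) (hqN : ¬ q ∣ N) {φ ψ : Cusp → Cusp → k}
    (hφ : InSym N φ) (hψ : InSym N ψ) (h : φ = - tr (um q 0 1) ψ) :
    ∀ g ∈ G0 q N, tr g φ = φ := by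
  intro g hg
  refine G0_le (H := Stb φ) hq hN hqN (fun γ hγ => hφ.inv γ hγ) (fun γ hγ => ?_) hg
  change tr _ φ = φ
  conv_lhs => rw [h]
  rw [tr_neg, ← tr_mul]
  have e : um q 0 1 * ((um q 0 1)⁻¹ * mapGL ℚ γ * um q 0 1) = mapGL ℚ γ * um q 0 1 := by group
  rw [e, tr_mul, hψ.inv γ hγ]
  exact h.symm

end Fermat.Agent.Ihara
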