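import Fermat.Agent.TWGal.TameInertia
import Fermat.Agent.FrobDens.Main
import Fermat.Agent.GalRep.Cyclo

/-!
# The number theoretic lemma for Ihara's lemma
-/

set_option autoImplicit false
set_option linter.unusedSectionVars false
set_option linter.style.haveILetI false

namespace Fermat.Agent.Ihara

open Fermat.Agent.DefRing Fermat.Agent.GalRep Fermat.Agent.Frob Fermat.Agent.TWGal IsLocalRing
open scoped Pointwise

local notation "Qbar" => AlgebraicClosure ℚ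

/-- inertia at `q` acts on `q^{1/n}` through all `n`-th roots of unity -/
theorem exists_inertia_mul {q : ℕ} (hq : q.Prime) {A : ValuationSubring Qbar}
    (hA : A.LiesOverPrime q) {n : ℕ} (hn : ¬ q ∣ n) {y : Qbar} (hy : y ^ n = q) {z : Qbar}
    (hz : z ^ n = 1) : ∃ τ ∈ A.inertiaSubgroupIn ℚ, τ y = z * y := by
  classical
  have hn0 : n ≠ 0 := fun h => hn (h ▸ dvd_zero q)
  have : NeZero n := ⟨hn0⟩
  have hq0 : (q : Qbar) ≠ 0 := by exact_mod_cast hq.ne_zero
  have hy0 : y ≠ 0 := by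
    rintro rfl
    rw [zero_pow hn0] at hy
    exact hq0 hy.symm
  have hroot : ∀ σ : GQ, (σ y / y) ^ n = 1 := fun σ => by
    rw [div_pow, ← map_pow, hy, map_natCast, div_self hq0]
  -- the Kummer homomorphism
  let f : A.inertiaSubgroupIn ℚ →* Qbarˣ :=
    { toFun := fun τ => Units.mk0 ((τ : GQ) y / y) (div_ne_zero (by simpa using hy0) hy0)
      map_one' := by
        ext
        simp [hy0]
      map_mul' := fun σ τ => by
        ext
        simp only [Units.val_mk0, Units.val_mul, Subgroup.coe_mul, AlgEquiv.mul_apply]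
        have h1 := inertia_rootOfUnity hq hA σ.2 hn (hroot (τ : GQ))
        rw [map_div₀, div_eq_div_iff (by simpa using hy0) hy0] at h1
        field_simp
        linear_combination h1 }
  have hf : ∀ τ, f τ ∈ rootsOfUnity n Qbar := fun τ => by
    rw [mem_rootsOfUnity]
    ext
    exact hroot τ
  have hle : f.range ≤ rootsOfUnity n Qbar := by
    rintro _ ⟨τ, rfl⟩
    exact hf τ
  -- surjectivity
  have hsurj : f.range = rootsOfUnity n Qbar := by
    by_contra hne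
    have hfin : Finite (rootsOfUnity n Qbar) := inferInstance
    have : NeZero (n : Qbar) := ⟨by exact_mod_cast hn0⟩
    have hcard : Nat.card (rootsOfUnity n Qbar) = n :=
      HasEnoughRootsOfUnity.natCard_rootsOfUnity Qbar n
    have hfinr : Finite f.range := Finite.of_injective (Subgroup.inclusion hle)
      (Subgroup.inclusion_injective hle)
    have hdvd : Nat.card f.range ∣ n := by
      have := Subgroup.card_dvd_of_le hle
      rwa [hcard] at this
    obtain ⟨c, hc⟩ := hdvd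
    have hc1 : c ≠ 1 := by
      rintro rfl
      apply hne
      refine Subgroup.eq_of_le_of_card_ge hle ?_
      rw [hcard]
      omega
    obtain ⟨r, hr, hrc⟩ := Nat.exists_prime_and_dvd hc1
    obtain ⟨d, rfl⟩ := hrc
    have hrn : n = r * (Nat.card f.range * d) := by rw [hc]; ring
    have hrq : r ≠ q := by
      rintro rfl
      exact hn (hrn ▸ dvd_mul_right _ _)
    obtain ⟨σ, hσ, h1⟩ := exists_inertia_moving hq hA hr hrq
    apply h1 (y ^ (Nat.card f.range * d))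
    · rw [← pow_mul, mul_comm, ← hrn, hy]
    · have h2 : (f ⟨σ, hσ⟩) ^ Nat.card f.range = 1 := by
        have h3 := pow_card_eq_one' (x := (⟨f ⟨σ, hσ⟩, ⟨_, rfl⟩⟩ : f.range))
        exact congrArg Subtype.val h3
      have h4 : (σ y / y) ^ (Nat.card f.range * d) = 1 := by
        rw [pow_mul]
        have h5 : (σ y / y) ^ Nat.card f.range = 1 := congrArg (fun u : Qbarˣ => (u : Qbar)) h2
        rw [h5, one_pow]
      rw [div_pow, div_eq_one_iff_eq (pow_ne_zero _ hy0)] at h4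
      rw [map_pow, h4]
  have hz0 : z ≠ 0 := by
    rintro rfl
    rw [zero_pow hn0] at hz
    exact zero_ne_one hz
  have hzm : Units.mk0 z hz0 ∈ f.range := by
    rw [hsurj, mem_rootsOfUnity]
    ext
    exact hz
  obtain ⟨τ, hτ⟩ := hzm
  refine ⟨τ, τ.2, ?_⟩
  have h1 : (τ : GQ) y / y = z := congrArg (fun u : Qbarˣ => (u : Qbar)) hτ
  rw [← h1, div_mul_cancel₀ _ hy0]

/-- a Galois element raising `ζ_m` to the power `a` and fixing `q^{1/n}` -/
theorem exists_sigma {q : ℕ} (hq : q.Prime) {m n a : ℕ} (hm : ¬ q ∣ m) (hn : ¬ q ∣ n)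
    (ha : a.Coprime m) {y : Qbar} (hy : y ^ n = q) {z : Qbar} (hz : IsPrimitiveRoot z m) :
    ∃ σ : GQ, σ z = z ^ a ∧ σ y = y := by
  have hm0 : m ≠ 0 := fun h => hm (h ▸ dvd_zero q)
  have hn0 : n ≠ 0 := fun h => hn (h ▸ dvd_zero q)
  have hq0 : (q : Qbar) ≠ 0 := by exact_mod_cast hq.ne_zero
  have hy0 : y ≠ 0 := by
    rintro rfl
    rw [zero_pow hn0] at hy
    exact hq0 hy.symm
  obtain ⟨σ₀, h0⟩ : ∃ σ : GQ, σ z = z ^ a := by
    have hpos := Nat.pos_of_ne_zero hm0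
    have h1 : ∀ w : Qbar, IsPrimitiveRoot w m →
        Polynomial.aeval w (Polynomial.cyclotomic m ℚ) = 0 := fun w hw => by
      rw [Polynomial.aeval_def, Polynomial.eval₂_eq_eval_map, Polynomial.map_cyclotomic]
      exact hw.isRoot_cyclotomic hpos
    have h2 : Polynomial.cyclotomic m ℚ = minpoly ℚ z :=
      minpoly.eq_of_irreducible_of_monic (Polynomial.cyclotomic.irreducible_rat hpos) (h1 z hz)
        (Polynomial.cyclotomic.monic m ℚ)
    refine minpoly.exists_algEquiv_of_root' (Algebra.IsAlgebraic.isAlgebraic z) ?_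
    rw [← h2]
    exact h1 _ (hz.pow_of_coprime a ha)
  obtain ⟨A, hA⟩ := Frob.exists_liesOverPrime Qbar hq
  have hw : (σ₀ y / y) ^ n = 1 := by
    rw [div_pow, ← map_pow, hy, map_natCast, div_self hq0]
  have hw' : ((σ₀ y / y)⁻¹) ^ n = 1 := by rw [inv_pow, hw, inv_one]
  obtain ⟨τ, hτ, h1⟩ := exists_inertia_mul hq hA hn hy hw'
  refine ⟨τ * σ₀, ?_, ?_⟩
  · rw [AlgEquiv.mul_apply, h0]
    exact inertia_rootOfUnity hq hA hτ hm (by rw [← pow_mul, mul_comm, pow_mul, hz.pow_eq_one,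
      one_pow])
  · rw [AlgEquiv.mul_apply]
    have h2 : σ₀ y = (σ₀ y / y) * y := by rw [div_mul_cancel₀ _ hy0]
    rw [h2, map_mul, inertia_rootOfUnity hq hA hτ hn hw, h1, ← mul_assoc,
      mul_inv_cancel₀ (div_ne_zero (by simpa using hy0) hy0), one_mul]

/-- primes with prescribed behaviour -/
theorem exists_prime {q : ℕ} (hq : q.Prime) {m n a : ℕ} (hm : ¬ q ∣ m) (hn : ¬ q ∣ n)
    (ha : a.Coprime m) (S : Set ℕ) (hS : S.Finite) :
    ∃ π : ℕ, π.Prime ∧ π ∉ S ∧ (∃ k : ℕ, π ^ k ≡ a [MOD m]) ∧ (∃ j : ℕ, a ^ j ≡ π [MOD m]) ∧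
      ∀ t : ℕ, n * t = π - 1 → (π : ℤ) ∣ (q : ℤ) ^ t - 1 := by
  have hm0 : m ≠ 0 := fun h => hm (h ▸ dvd_zero q)
  have hn0 : n ≠ 0 := fun h => hn (h ▸ dvd_zero q)
  have : NeZero m := ⟨hm0⟩
  have : NeZero (m : Qbar) := ⟨by exact_mod_cast hm0⟩
  obtain ⟨z, hz⟩ := HasEnoughRootsOfUnity.exists_primitiveRoot Qbar m
  obtain ⟨y, hy⟩ := IsAlgClosed.exists_pow_nat_eq (q : Qbar) (Nat.pos_of_ne_zero hn0)
  have hq0 : (q : Qbar) ≠ 0 := by exact_mod_cast hq.ne_zero
  obtain ⟨σ, hσz, hσy⟩ := exists_sigma hq hm hn ha hy hz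
  let L := IntermediateField.adjoin ℚ ({z, y} : Set Qbar)
  have hzL : z ∈ L := IntermediateField.subset_adjoin _ _ (by simp)
  have hyL : y ∈ L := IntermediateField.subset_adjoin _ _ (by simp)
  haveI : FiniteDimensional ℚ L := by
    refine IntermediateField.finiteDimensional_adjoin fun x _ => Algebra.IsIntegral.isIntegral x
  obtain ⟨π, hπ, hπS, A, hA, τ, hτ, k, j, h1, h2⟩ := FrobDens.exists_frobenius L
    (S ∪ (↑m.primeFactors ∪ {q})) (hS.union ((Finset.finite_toSet _).union (Set.finite_singleton q))) σ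
  have hπm : ¬ π ∣ m := fun h => hπS (Or.inr (Or.inl (by
    rw [Finset.mem_coe, Nat.mem_primeFactors]; exact ⟨hπ, h, hm0⟩)))
  have hπq : π ≠ q := fun h => hπS (Or.inr (Or.inr h))
  have hτz : τ z = z ^ π := frob_rootOfUnity hπ hA hτ hπm hz.pow_eq_one
  have hpowτ : ∀ i : ℕ, (τ ^ i) z = z ^ (π ^ i) := by
    intro i
    induction i with
    | zero => simp
    | succ i ih => rw [pow_succ', AlgEquiv.mul_apply, ih, map_pow, hτz, ← pow_mul, ← pow_succ']
  have hpowσ : ∀ i : ℕ, (σ ^ i) z = z ^ (a ^ i) := by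
    intro i
    induction i with
    | zero => simp
    | succ i ih => rw [pow_succ', AlgEquiv.mul_apply, ih, map_pow, hσz, ← pow_mul, ← pow_succ']
  have hmod : ∀ u v : ℕ, z ^ u = z ^ v → u ≡ v [MOD m] := by
    intro u v h
    have hzu : IsPrimitiveRoot (Units.mk0 z (hz.ne_zero hm0)) m := by
      rw [← IsPrimitiveRoot.coe_units_iff]
      exact hz
    have h3 : (Units.mk0 z (hz.ne_zero hm0)) ^ u = (Units.mk0 z (hz.ne_zero hm0)) ^ v :=
      Units.ext h
    have h4 := pow_eq_pow_iff_modEq.mp h3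
    rwa [← hzu.eq_orderOf] at h4
  refine ⟨π, hπ, fun h => hπS (Or.inl h), ⟨k, ?_⟩, ⟨j, ?_⟩, fun t ht => ?_⟩
  · apply hmod
    rw [← hpowτ, h1 z hzL, hσz]
  · apply hmod
    rw [← hpowσ, h2 z hzL, hτz]
  · have hσy' : ∀ i : ℕ, (σ ^ i) y = y := by
      intro i
      induction i with
      | zero => simp
      | succ i ih => rw [pow_succ', AlgEquiv.mul_apply, ih, hσy]
    have hτy : τ y = y := by rw [← h2 y hyL, hσy']
    have hyA : y ∈ A := by
      rw [← A.valuation_le_one_iff]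
      have h3 : A.valuation y ^ n ≤ 1 := by
        rw [← map_pow, hy, A.valuation_le_one_iff]
        exact natCast_mem A q
      exact (pow_le_one_iff_of_nonneg zero_le hn0).mp h3
    have hchar := FrobDens.charP_residueField A hπ hA
    set yb := residue A ⟨y, hyA⟩ with hyb
    have e1 : yb ^ π = yb := by
      have h3 := (FrobDens.isFrobeniusAt_iff.mp hτ).2 y hyA
      rw [hτy] at h3
      rw [hyb, ← map_pow]
      symm
      rw [FrobDens.residue_eq_iff]
      exact h3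
    have e2 : yb ^ n = (q : ResidueField A) := by
      rw [hyb, ← map_pow, ← map_natCast (residue A)]
      congr 1
      apply Subtype.ext
      change y ^ n = ((q : A) : Qbar)
      rw [hy]
      simp
    have e3 : (q : ResidueField A) ≠ 0 := by
      rw [Ne, CharP.cast_eq_zero_iff (ResidueField A) π]
      intro h
      exact hπq ((Nat.prime_dvd_prime_iff_eq hπ hq).mp h)
    have e4 : yb ≠ 0 := by
      intro h
      rw [h, zero_pow hn0] at e2
      exact e3 e2.symm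
    have e5 : yb ^ (π - 1) = 1 := by
      have h3 : yb ^ (π - 1) * yb = yb := by
        rw [← pow_succ, Nat.sub_add_cancel hπ.one_le]
        exact e1
      exact mul_right_cancel₀ e4 (h3.trans (one_mul yb).symm)
    have e6 : ((((q : ℤ) ^ t - 1 : ℤ)) : ResidueField A) = 0 := by
      push_cast
      rw [← e2, ← pow_mul, ht, e5, sub_self]
    rwa [CharP.intCast_eq_zero_iff (ResidueField A) π] at e6

/-- **the number theoretic lemma** -/
theorem nt_lemma {q : ℕ} (hq : q.Prime) {m : ℕ} (_hm : 0 < m) (hqm : ¬ q ∣ m) (R : Finset ℕ)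
    (hR : ∀ r ∈ R, r.Prime ∧ r ∣ m) {a : ℤ} (ha : IsCoprime a (m : ℤ))
    (h1 : ∀ r ∈ R, (r : ℤ) ∣ a - 1) :
    ∃ a' s : ℕ, 0 < a' ∧ (m : ℤ) ∣ (a' : ℤ) - a ∧ 0 < s ∧ (∀ r ∈ R, ¬ r ∣ s) ∧
      (a' : ℤ) ∣ (q : ℤ) ^ s - 1 := by
  classical
  rcases eq_or_ne a 1 with rfl | ha1
  · refine ⟨1, 1, one_pos, by simp, one_pos, fun r hr h => ?_, by simp⟩
    exact (hR r hr).1.one_lt.ne' (Nat.dvd_one.mp h)
  have ha1' : a - 1 ≠ 0 := sub_ne_zero.mpr ha1
  have he : ∀ r ∈ R, ∃ e : ℕ, ((r : ℤ) ^ e ∣ a - 1) ∧ ¬ ((r : ℤ) ^ (e + 1) ∣ a - 1) := by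
    intro r hr
    have hfin : FiniteMultiplicity (r : ℤ) (a - 1) := by
      rw [Int.finiteMultiplicity_iff]
      refine ⟨?_, ha1'⟩
      rw [Int.natAbs_natCast]
      exact (hR r hr).1.ne_one
    exact ⟨multiplicity (r : ℤ) (a - 1), pow_multiplicity_dvd _ _,
      hfin.not_pow_dvd_of_multiplicity_lt (Nat.lt_succ_self _)⟩
  choose! e he1 he2 using he
  set m' : ℕ := m * ∏ r ∈ R, r ^ (e r + 1) with hm'
  set n : ℕ := ∏ r ∈ R, r ^ e r with hn
  have hqr : ∀ r ∈ R, ¬ q ∣ r := fun r hr h => hqm (h.trans (hR r hr).2)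
  have hqm' : ¬ q ∣ m' := by
    intro h
    rcases (hq.dvd_mul).mp h with h | h
    · exact hqm h
    · obtain ⟨r, hr, h2⟩ := (Prime.dvd_finsetProd_iff hq.prime _).mp h
      exact hqr r hr (hq.dvd_of_dvd_pow h2)
  have hqn : ¬ q ∣ n := by
    intro h
    obtain ⟨r, hr, h2⟩ := (Prime.dvd_finsetProd_iff hq.prime _).mp h
    exact hqr r hr (hq.dvd_of_dvd_pow h2)
  have hm'0 : m' ≠ 0 := fun h => hqm' (h ▸ dvd_zero q)
  have hn0 : n ≠ 0 := fun h => hqn (h ▸ dvd_zero q)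
  have hrm' : ∀ r ∈ R, r ^ (e r + 1) ∣ m' := fun r hr =>
    (Finset.dvd_prod_of_mem (fun r => r ^ (e r + 1)) hr).trans (dvd_mul_left _ _)
  have ham' : IsCoprime a (m' : ℤ) := by
    rw [hm']
    push_cast
    refine ha.mul_right (IsCoprime.prod_right fun r hr => IsCoprime.pow_right ?_)
    obtain ⟨c, hc⟩ := (hR r hr).2
    rw [hc] at ha
    push_cast at ha
    exact ha.of_mul_right_left
  obtain ⟨a0, ha0⟩ : ∃ a0 : ℕ, (m' : ℤ) ∣ (a0 : ℤ) - a := by
    refine ⟨(a % m').toNat, ?_⟩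
    rw [Int.toNat_of_nonneg (Int.emod_nonneg _ (by exact_mod_cast hm'0))]
    exact ⟨-(a / m'), by linarith [Int.emod_add_mul_ediv a m']⟩
  have hcop : a0.Coprime m' := by
    rw [← Nat.isCoprime_iff_coprime]
    obtain ⟨c, hc⟩ := ha0
    have : (a0 : ℤ) = a + m' * c := by linarith
    rw [this]
    exact ham'.add_mul_left_left c
  have hnat : ∀ x : ℕ, 1 ≤ x → ∀ d : ℕ, (d ∣ x - 1 ↔ ((d : ℤ) ∣ (x : ℤ) - 1)) := by
    intro x hx d
    rw [← Int.natCast_dvd_natCast, Nat.cast_sub hx, Nat.cast_one]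
  -- the set of good primes
  let P : Set ℕ := {π | π.Prime ∧ (∃ k : ℕ, π ^ k ≡ a0 [MOD m']) ∧ (∃ j : ℕ, a0 ^ j ≡ π [MOD m']) ∧
      ∀ t : ℕ, n * t = π - 1 → (π : ℤ) ∣ (q : ℤ) ^ t - 1}
  have hPinf : P.Infinite := by
    intro hfin
    obtain ⟨π, h2, h3, h4, h5, h6⟩ := exists_prime hq hqm' hqn hcop P hfin
    exact h3 ⟨h2, h4, h5, h6⟩
  have hre : ∀ r ∈ R, r ^ e r ∣ m' := fun r hr =>
    (pow_dvd_pow r (Nat.le_succ _)).trans (hrm' r hr)
  have hint : ∀ {d : ℕ}, d ∣ m' → ∀ {x : ℕ}, a0 ≡ x [MOD m'] → ((d : ℤ) ∣ a - 1 ↔ x ≡ 1 [MOD d]) := by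
    intro d hd x hx
    have h2 : (d : ℤ) ∣ (a0 : ℤ) - a := (Int.natCast_dvd_natCast.mpr hd).trans ha0
    have h3 : a0 ≡ x [MOD d] := hx.of_dvd hd
    have h4 : (d : ℤ) ∣ (x : ℤ) - a0 := (Nat.modEq_iff_dvd).mp h3
    rw [Nat.ModEq.comm, Nat.modEq_iff_dvd]
    push_cast
    have h5 : (d : ℤ) ∣ (x : ℤ) - a := by
      have := dvd_add h4 h2
      rwa [sub_add_sub_cancel] at this
    constructor
    · intro h6
      have := dvd_add h5 h6
      rwa [sub_add_sub_cancel] at this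
    · intro h6
      have := dvd_sub h6 h5
      have e : (x : ℤ) - 1 - (x - a) = a - 1 := by ring
      rwa [e] at this
  have hP1 : ∀ π ∈ P, n ∣ π - 1 := by
    rintro π ⟨hπ, -, ⟨j, hj⟩, -⟩
    rw [hn]
    refine Finset.prod_dvd_of_isRelPrime (fun r hr r' hr' hne => ?_) fun r hr => ?_
    · rw [Function.onFun, ← Nat.coprime_iff_isRelPrime]
      exact Nat.Coprime.pow _ _ ((Nat.coprime_primes (hR r hr).1 (hR r' hr').1).mpr hne)
    · have h2 : a0 ≡ 1 [MOD r ^ e r] := (hint (hre r hr) rfl).mp (by exact_mod_cast he1 r hr)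
      have h3 : π ≡ 1 [MOD r ^ e r] := by
        have h4 := (h2.pow j).symm
        rw [one_pow] at h4
        exact ((hj.of_dvd (hre r hr)).symm).trans h4.symm
      exact (Nat.modEq_iff_dvd' hπ.one_le).mp h3.symm
  have hP2 : ∀ π ∈ P, ∀ r ∈ R, ¬ r ∣ (π - 1) / n := by
    rintro π hπP r hr ⟨c, hc⟩
    obtain ⟨hπ, ⟨k, hk⟩, -, -⟩ := id hπP
    have h2 : π - 1 = n * (r * c) := by rw [← hc, Nat.mul_div_cancel' (hP1 π hπP)]
    obtain ⟨d, hd⟩ : r ^ e r ∣ n := Finset.dvd_prod_of_mem (fun r => r ^ e r) hr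
    have h3 : r ^ (e r + 1) ∣ π - 1 := ⟨d * c, by rw [h2, hd]; ring⟩
    have h4 : π ≡ 1 [MOD r ^ (e r + 1)] := ((Nat.modEq_iff_dvd' hπ.one_le).mpr h3).symm
    have h5 : π ^ k ≡ 1 [MOD r ^ (e r + 1)] := by
      have := h4.pow k
      rwa [one_pow] at this
    apply he2 r hr
    have h6 := (hint (hrm' r hr) hk.symm).mpr h5
    exact_mod_cast h6
  -- pigeonhole
  have : Infinite P := hPinf.to_subtype
  have : NeZero m' := ⟨hm'0⟩
  obtain ⟨c, hc⟩ := Finite.exists_infinite_fiber (fun x : P => ((x : ℕ) : ZMod m'))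
  obtain ⟨⟨π₀, hπ₀⟩, hπ₀c⟩ : ∃ x : P, ((x : ℕ) : ZMod m') = c := by
    obtain ⟨x⟩ := (inferInstance : Nonempty ((fun x : P => ((x : ℕ) : ZMod m')) ⁻¹' {c}))
    exact ⟨x.1, x.2⟩
  obtain ⟨-, ⟨k, hk⟩, -, -⟩ := id hπ₀
  obtain ⟨T, hT, hTk⟩ := (Set.infinite_coe_iff.mp hc).exists_subset_card_eq k
  have hTP : ∀ x ∈ T, ((x : ℕ) : ZMod m') = c := fun x hx => hT hx
  have hs0 : ∀ x : P, 0 < ((x : ℕ) - 1) / n := fun x => by
    refine Nat.div_pos (Nat.le_of_dvd ?_ (hP1 x x.2)) (Nat.pos_of_ne_zero hn0)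
    have := x.2.1.two_le
    omega
  refine ⟨∏ x ∈ T, (x : ℕ), ∏ x ∈ T, ((x : ℕ) - 1) / n, Finset.prod_pos fun x _ => x.2.1.pos, ?_,
    Finset.prod_pos fun x _ => hs0 x, fun r hr h => ?_, ?_⟩
  · have h2 : ((∏ x ∈ T, (x : ℕ) : ℕ) : ZMod m') = a0 := by
      push_cast
      rw [Finset.prod_congr rfl hTP, Finset.prod_const, hTk, ← hπ₀c]
      have h3 := (ZMod.natCast_eq_natCast_iff _ _ _).mpr hk
      push_cast at h3
      exact h3
    have h3 : (m' : ℤ) ∣ ((∏ x ∈ T, (x : ℕ) : ℕ) : ℤ) - a0 := by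
      rw [← ZMod.intCast_zmod_eq_zero_iff_dvd]
      push_cast at h2 ⊢
      rw [h2, sub_self]
    have h4 := dvd_add h3 ha0
    rw [sub_add_sub_cancel] at h4
    exact (Int.natCast_dvd_natCast.mpr (dvd_mul_right _ _)).trans h4
  · obtain ⟨x, hx, h2⟩ := (Prime.dvd_finsetProd_iff (hR r hr).1.prime _).mp h
    exact hP2 x x.2 r hr h2
  · push_cast
    refine Finset.prod_dvd_of_isRelPrime (fun x hx y hy hne => ?_) fun x hx => ?_
    · have h2 : (x : ℕ) ≠ y := fun h => hne (Subtype.ext h)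
      exact (Nat.isCoprime_iff_coprime.mpr ((Nat.coprime_primes x.2.1 y.2.1).mpr h2)).isRelPrime
    · have h2 := x.2.2.2.2 (((x : ℕ) - 1) / n) (Nat.mul_div_cancel' (hP1 x x.2))
      refine h2.trans ?_
      obtain ⟨d, hd⟩ := Finset.dvd_prod_of_mem (fun x : P => ((x : ℕ) - 1) / n) hx
      rw [hd, pow_mul]
      exact sub_one_dvd_pow_sub_one _ _

end Fermat.Agent.Ihara
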