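import Fermat.Agent.Ihara.NT
import Fermat.Agent.Ihara.Defs

/-!
# (I1)
-/

set_option autoImplicit false

namespace Fermat.Agent.Ihara

theorem ntLemma : NTLemma := by
  intro q hq R hR m hm hqm hRm a ha h1
  obtain ⟨a', s, h2, h3, h4, h5, h6⟩ := nt_lemma hq hm hqm R (fun r hr => ⟨(hR r hr).1, hRm r hr⟩)
    ha h1
  refine ⟨a', s, h2, h3, h4, h5, ?_⟩
  rw [← Int.natCast_dvd_natCast, Nat.cast_sub (Nat.one_le_pow _ _ hq.pos)]
  push_cast
  exact h6

end Fermat.Agent.Ihara
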