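import Fermat.Agent.Ihara.Basic

/-!
# Homomorphisms on principal congruence subgroups of `SL₂(ℤ[1/q])`
-/

set_option autoImplicit false

noncomputable section

namespace Fermat.Agent.Ihara

open CongruenceSubgroup Matrix.SpecialLinearGroup
open scoped MatrixGroups

variable {k : Type*} [AddCommGroup k] {q M : ℕ} {Ψ : GL (Fin 2) ℚ → k}

/-- homs on `GM q M` trivial on the stabilizers of cusps -/
structure InV (q M : ℕ) (Ψ : GL (Fin 2) ℚ → k) : Prop where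
  mul : ∀ x ∈ GM q M, ∀ y ∈ GM q M, Ψ (x * y) = Ψ x + Ψ y
  cusp : ∀ x ∈ GM q M, ∀ α : Cusp, x • α = α → Ψ x = 0

/-- conjugation -/
def cj (z : GL (Fin 2) ℚ) (Ψ : GL (Fin 2) ℚ → k) : GL (Fin 2) ℚ → k := fun x => Ψ (z * x * z⁻¹)

lemma cj_apply (z : GL (Fin 2) ℚ) (Ψ : GL (Fin 2) ℚ → k) (x : GL (Fin 2) ℚ) :
    cj z Ψ x = Ψ (z * x * z⁻¹) := rfl

lemma cj_cj (w z : GL (Fin 2) ℚ) (Ψ : GL (Fin 2) ℚ → k) : cj w (cj z Ψ) = cj (z * w) Ψ := by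
  funext x
  rw [cj_apply, cj_apply, cj_apply]
  congr 1
  group

lemma cj_one (Ψ : GL (Fin 2) ℚ → k) : cj 1 Ψ = Ψ := by
  funext x
  rw [cj_apply]
  congr 1
  group

lemma InV.conj {M' : ℕ} (h : InV q M Ψ) {z : GL (Fin 2) ℚ}
    (hz : ∀ x ∈ GM q M', z * x * z⁻¹ ∈ GM q M) : InV q M' (cj z Ψ) where
  mul x hx y hy := by
    rw [cj_apply, cj_apply, cj_apply, ← h.mul _ (hz x hx) _ (hz y hy)]
    congr 1
    group
  cusp x hx α hα := by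
    refine h.cusp _ (hz x hx) (z • α) ?_
    rw [mul_smul, mul_smul, inv_smul_smul, hα]

lemma InV.conjG (h : InV q M Ψ) {z : GL (Fin 2) ℚ} (hz : z ∈ G0 q 1) : InV q M (cj z Ψ) :=
  h.conj fun _ hx => GM_conj hz hx

lemma InV.one (h : InV q M Ψ) : Ψ 1 = 0 := h.cusp 1 (one_mem _) OnePoint.infty (one_smul _ _)

lemma InV.inv (h : InV q M Ψ) {x : GL (Fin 2) ℚ} (hx : x ∈ GM q M) : Ψ x⁻¹ = -Ψ x := by
  have := h.mul x hx x⁻¹ (inv_mem hx)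
  rw [mul_inv_cancel, h.one] at this
  exact (neg_eq_of_add_eq_zero_right this.symm).symm

lemma InV.inner (h : InV q M Ψ) {x z : GL (Fin 2) ℚ} (hx : x ∈ GM q M) (hz : z ∈ GM q M) :
    cj z Ψ x = Ψ x := by
  rw [cj_apply, h.mul _ (mul_mem hz hx) _ (inv_mem hz), h.mul _ hz _ hx, h.inv hz]
  abel

lemma InV.mono {M' : ℕ} (h : InV q M Ψ) (hM : M ∣ M') : InV q M' Ψ :=
  ⟨fun x hx y hy => h.mul x (GM_mono hM hx) y (GM_mono hM hy), fun x hx => h.cusp x (GM_mono hM hx)⟩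

lemma InV.U (h : InV q M Ψ) {y : ℚ} (hy : y ∈ IA q M) : Ψ (U y) = 0 :=
  h.cusp _ (U_mem_GM hy) OnePoint.infty (U_smul_infty y)

/-- elements with the same first row -/
lemma InV.row (h : InV q M Ψ) {x y : GL (Fin 2) ℚ} (hx : x ∈ GM q M) (hy : y ∈ GM q M)
    (h0 : x 0 0 = y 0 0) (h1 : x 0 1 = y 0 1) : Ψ x = Ψ y := by
  have e : x = (x * y⁻¹) * y := by group
  have hxy : x * y⁻¹ ∈ GM q M := mul_mem hx (inv_mem hy)
  have h01 : (x * y⁻¹) 0 1 = 0 := by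
    rw [mul_01, inv_01 hy.1, inv_11 hy.1, h0, h1]; ring
  have hfix : (x * y⁻¹) • ((0 : ℚ) : Cusp) = ((0 : ℚ) : Cusp) := by
    rw [OnePoint.smul_some_eq_ite, h01]
    have h11 : (x * y⁻¹) 1 1 ≠ 0 := by
      intro h11
      have := dt_ne (x * y⁻¹)
      rw [dt, h01, h11] at this
      simp at this
    rw [if_neg (by simpa using h11)]
    simp
  conv_lhs => rw [e, h.mul _ hxy _ hy, h.cusp _ hxy _ hfix, zero_add]

lemma Dg_mem (hq : q ≠ 0) (s : ℕ) : Dg ((q : ℚ) ^ s) ∈ G0 q 1 := by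
  have hu : (q : ℚ) ^ s ≠ 0 := pow_ne_zero _ (by exact_mod_cast hq)
  refine ⟨dt_Dg hu, ?_, ?_, ?_, ?_⟩
  · rw [Dg_00 hu]; exact qpow_mem q s
  · rw [Dg_01 hu]; exact zero_mem _
  · rw [Dg_10 hu]; exact zero_mem _
  · rw [Dg_11 hu]; exact qinv_mem hq s

lemma c1 (hq : q ≠ 0) (h : InV q M Ψ) {x : GL (Fin 2) ℚ} (hx : x ∈ GM q M) {s : ℕ} {e : ℚ}
    (he : e ∈ IA q 1) (hxe : (q : ℚ) ^ (2 * s) - 1 = x 0 0 * e) :
    cj (Dg ((q : ℚ) ^ s)) Ψ x = Ψ x := by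
  have hu : (q : ℚ) ^ s ≠ 0 := pow_ne_zero _ (by exact_mod_cast hq)
  have hD := Dg_mem hq s
  have hy : x 0 1 * e ∈ IA q M := IA_mul_right hx.2.2.1 he
  have hxU : x * U (x 0 1 * e) ∈ GM q M := mul_mem hx (U_mem_GM hy)
  rw [cj_apply, h.row (GM_conj hD hx) hxU, h.mul _ hx _ (U_mem_GM hy), h.U hy, add_zero]
  · rw [mul_00, mul_00, mul_01, mul_00, inv_00 hD.1, inv_10 hD.1, Dg_00 hu, Dg_01 hu, Dg_10 hu,
      Dg_11 hu, U_00, U_10]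
    field_simp
    ring
  · rw [mul_01, mul_00, mul_01, mul_01, inv_01 hD.1, inv_11 hD.1, Dg_00 hu, Dg_01 hu, U_01, U_11]
    have e1 : (q : ℚ) ^ (2 * s) = (q : ℚ) ^ s * (q : ℚ) ^ s := by rw [two_mul, pow_add]
    rw [e1] at hxe
    linear_combination (x 0 1) * hxe

lemma Dg_U (hq : q ≠ 0) (s : ℕ) (t : ℚ) :
    Dg ((q : ℚ) ^ s) * U t = U ((q : ℚ) ^ (2 * s) * t) * Dg ((q : ℚ) ^ s) := by
  have hu : (q : ℚ) ^ s ≠ 0 := pow_ne_zero _ (by exact_mod_cast hq)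
  apply gl_ext
  · rw [mul_00, mul_00, Dg_00 hu, Dg_01 hu, Dg_10 hu, U_00, U_00, U_10, U_01]; ring
  · rw [mul_01, mul_01, Dg_00 hu, Dg_01 hu, Dg_11 hu, U_00, U_01, U_11, U_01, two_mul, pow_add]
    field_simp
    ring
  · rw [mul_10, mul_10, Dg_00 hu, Dg_10 hu, Dg_11 hu, U_00, U_10, U_10, U_11]; ring
  · rw [mul_11, mul_11, Dg_01 hu, Dg_10 hu, Dg_11 hu, U_01, U_11, U_10, U_11]; ring

lemma c2 (hq : q ≠ 0) (h : InV q M Ψ) {x : GL (Fin 2) ℚ} (hx : x ∈ GM q M) {s : ℕ} {t e e' : ℚ}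
    (ht : t ∈ IA q 1) (he : e ∈ IA q 1) (hxe : (q : ℚ) ^ (2 * s) - 1 = x 0 0 * e)
    (he' : e' ∈ IA q 1) (hxe' : (q : ℚ) ^ (2 * s) - 1 = (x 0 0 + t * x 1 0) * e') :
    cj (U t) Ψ x = cj (U ((q : ℚ) ^ (2 * s) * t)) Ψ x := by
  have hUt : U t ∈ G0 q 1 := U_mem_G0 ht
  have hx' : U t * x * (U t)⁻¹ ∈ GM q M := GM_conj hUt hx
  have h00 : (U t * x * (U t)⁻¹) 0 0 = x 0 0 + t * x 1 0 := by
    rw [mul_00, mul_00, mul_01, inv_00 hUt.1, inv_10 hUt.1, U_00, U_01, U_10, U_11]; ring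
  have h1 := c1 hq h hx' he' (by rw [h00]; exact hxe')
  have hq2 : (q : ℚ) ^ (2 * s) * t ∈ IA q 1 := IA_mul_left (qpow_mem q _) ht
  have h2 := c1 hq (h.conjG (U_mem_G0 (N := 1) hq2)) hx he hxe
  rw [cj_apply (U t) Ψ x, ← h1, ← h2]
  rw [cj_cj, cj_apply, cj_apply, ← Dg_U hq]
  congr 1
  group

/-! ### arithmetic in `ℤ[1/q]` -/

lemma IA_int (hc : q.Coprime M) {z : ℤ} (hz : (z : ℚ) ∈ IA q M) : (M : ℤ) ∣ z := by
  obtain ⟨n, w, h⟩ := hz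
  have h1 : (q : ℤ) ^ n * z = M * w := by exact_mod_cast h
  have h2 : IsCoprime (M : ℤ) ((q : ℤ) ^ n) :=
    (Nat.isCoprime_iff_coprime.mpr hc.symm).pow_right
  exact h2.dvd_of_dvd_mul_left ⟨w, h1⟩

lemma int_mem_of_dvd {z : ℤ} (hz : (M : ℤ) ∣ z) : (z : ℚ) ∈ IA q M := by
  obtain ⟨w, rfl⟩ := hz
  exact ⟨0, w, by push_cast; ring⟩

lemma exists_int_rep (hc : q.Coprime M) {r : ℚ} (hr : r ∈ IA q 1) :
    ∃ z : ℤ, r - z ∈ IA q M := by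
  obtain ⟨n, w, h⟩ := hr
  have h2 : IsCoprime ((q : ℤ) ^ n) (M : ℤ) :=
    (Nat.isCoprime_iff_coprime.mpr hc).pow_left
  obtain ⟨u, v, huv⟩ := h2
  refine ⟨w * u, n, w * v, ?_⟩
  have h3 : (u : ℚ) * (q : ℚ) ^ n + v * M = 1 := by exact_mod_cast huv
  push_cast
  push_cast at h
  linear_combination h + (w : ℚ) * (-h3)

/-- a nonzero element of `M ℤ[1/q]` -/
lemma exists_gen (hq : q.Prime) (hc : q.Coprime M) {c : ℚ} (hcM : c ∈ IA q M) (hc0 : c ≠ 0) :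
    ∃ C : ℕ, C ≠ 0 ∧ q.Coprime C ∧ M ∣ C ∧ c ∈ IA q C ∧
      ∀ (L : ℕ) (r : ℚ), r ∈ IA q (L * C) → r / c ∈ IA q L := by
  obtain ⟨n, z, h⟩ := hcM
  have hq0 : (q : ℚ) ≠ 0 := by exact_mod_cast hq.ne_zero
  have hz0 : z ≠ 0 := by
    rintro rfl
    rw [Int.cast_zero, mul_zero] at h
    rcases mul_eq_zero.mp h with h1 | h1
    · exact pow_ne_zero _ hq0 h1
    · exact hc0 h1
  have hM0 : (M : ℚ) ≠ 0 := by
    intro hM0
    rw [hM0, zero_mul] at h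
    rcases mul_eq_zero.mp h with h1 | h1
    · exact pow_ne_zero _ hq0 h1
    · exact hc0 h1
  obtain ⟨j, c₁, hc₁, hz⟩ := Nat.exists_eq_pow_mul_and_not_dvd (Int.natAbs_ne_zero.mpr hz0) q
    hq.ne_one
  have hc₁0 : c₁ ≠ 0 := by rintro rfl; exact hc₁ (dvd_zero q)
  obtain ⟨σ, hσ, hσz⟩ : ∃ σ : ℤ, σ * σ = 1 ∧ z = σ * (q ^ j * c₁ : ℕ) := by
    rcases Int.natAbs_eq z with hh | hh
    · exact ⟨1, by norm_num, by rw [← hz]; linarith⟩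
    · exact ⟨-1, by norm_num, by rw [← hz]; linarith⟩
  have hσ' : (σ : ℚ) * σ = 1 := by exact_mod_cast hσ
  have hcC : (q : ℚ) ^ n * c = σ * (q : ℚ) ^ j * (M * c₁ : ℕ) := by
    rw [h, hσz]; push_cast; ring
  have hC0 : ((M * c₁ : ℕ) : ℚ) ≠ 0 := by
    push_cast
    exact mul_ne_zero hM0 (by exact_mod_cast hc₁0)
  refine ⟨M * c₁, by exact_mod_cast hC0, hc.mul_right ((Nat.Prime.coprime_iff_not_dvd hq).mpr hc₁),
    dvd_mul_right M c₁, ⟨n, σ * q ^ j, by rw [hcC]; push_cast; ring⟩, ?_⟩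
  intro L r hr
  obtain ⟨i, w, hw⟩ := hr
  refine ⟨i + j, w * σ * q ^ n, ?_⟩
  have hqn : (q : ℚ) ^ n ≠ 0 := pow_ne_zero _ hq0
  rw [mul_div_assoc', div_eq_iff hc0, pow_add]
  have e1 : (q : ℚ) ^ i * (q : ℚ) ^ j * r = (q : ℚ) ^ j * ((L * (M * c₁) : ℕ) * w) := by
    rw [← hw]; ring
  rw [e1]
  push_cast
  push_cast at hcC
  linear_combination (-(L : ℚ) * w * σ) * hcC - ((q : ℚ) ^ j * L * M * c₁ * w) * hσ'

lemma pow_dvd_aux {r s j : ℕ} (hr : r.Prime) (hq : ¬ r ∣ q) (hq1 : 1 ≤ q) (hs : ¬ r ∣ s)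
    (h : r ^ j ∣ q ^ (2 * s) - 1) : r ^ j ∣ q ^ (2 * (r - 1)) - 1 := by
  set Q := q ^ (2 * (r - 1)) with hQ
  have hQ1 : 1 ≤ Q := Nat.one_le_pow _ _ hq1
  have h1 : r ^ j ∣ Q ^ s - 1 := by
    refine h.trans ?_
    rw [hQ, ← pow_mul, show 2 * (r - 1) * s = (2 * s) * (r - 1) by ring, pow_mul q (2 * s) (r - 1)]
    have := Nat.sub_dvd_pow_sub_pow (q ^ (2 * s)) 1 (r - 1)
    rwa [one_pow] at this
  have hQr : ((Q : ℕ) : ZMod r) = 1 := by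
    have : Fact r.Prime := ⟨hr⟩
    rw [hQ]
    push_cast
    rw [mul_comm, pow_mul, ZMod.pow_card_sub_one_eq_one, one_pow]
    intro h0
    exact hq ((ZMod.natCast_eq_zero_iff _ _).mp h0)
  have h2 : ((Q ^ s - 1 : ℕ) : ℤ) = ((Q - 1 : ℕ) : ℤ) * ∑ i ∈ Finset.range s, (Q : ℤ) ^ i := by
    rw [Nat.cast_sub (Nat.one_le_pow _ _ hQ1), Nat.cast_sub hQ1]
    push_cast
    rw [mul_comm, geom_sum_mul]
  have h3 : IsCoprime ((r ^ j : ℕ) : ℤ) (∑ i ∈ Finset.range s, (Q : ℤ) ^ i) := by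
    push_cast
    refine IsCoprime.pow_left ?_
    rw [Prime.coprime_iff_not_dvd (Nat.prime_iff_prime_int.mp hr)]
    intro h4
    rw [← ZMod.intCast_zmod_eq_zero_iff_dvd] at h4
    push_cast at h4
    rw [hQr] at h4
    simp only [one_pow, Finset.sum_const, Finset.card_range, nsmul_eq_mul, mul_one] at h4
    exact hs ((ZMod.natCast_eq_zero_iff _ _).mp h4)
  have h4 : ((r ^ j : ℕ) : ℤ) ∣ ((Q ^ s - 1 : ℕ) : ℤ) := Int.natCast_dvd_natCast.mpr h1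
  rw [h2] at h4
  exact Int.natCast_dvd_natCast.mp (h3.dvd_of_dvd_mul_right h4)

/-- the constant -/
def WW (q : ℕ) (R : Finset ℕ) : ℕ := ∏ r ∈ R, (q ^ (2 * (r - 1)) - 1)

lemma WW_ne (hq : q.Prime) {R : Finset ℕ} (hR : ∀ r ∈ R, r.Prime) : WW q R ≠ 0 := by
  rw [WW, Finset.prod_ne_zero_iff]
  intro r hr
  have h1 := (hR r hr).two_le
  have h2 : 1 < q ^ (2 * (r - 1)) := Nat.one_lt_pow (by omega) hq.one_lt
  omega

lemma gcd_dvd_WW (hq : q.Prime) (hM : M ≠ 0) (hqM : ¬ q ∣ M) {s : ℕ}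
    (hs : ∀ r ∈ M.primeFactors, ¬ r ∣ s) :
    Nat.gcd M (q ^ (2 * s) - 1) ∣ WW q M.primeFactors := by
  rw [Nat.dvd_iff_prime_pow_dvd_dvd]
  intro r j hr hj
  rcases Nat.eq_zero_or_pos j with rfl | hj0
  · simp
  have h1 : r ∣ M := (dvd_pow_self r hj0.ne').trans (hj.trans (Nat.gcd_dvd_left _ _))
  have hrM : r ∈ M.primeFactors := Nat.mem_primeFactors.mpr ⟨hr, h1, hM⟩
  have hrq : ¬ r ∣ q := by
    intro h
    rw [Nat.prime_dvd_prime_iff_eq hr hq] at h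
    exact hqM (h ▸ h1)
  exact (pow_dvd_aux hr hrq hq.one_le (hs r hrM) (hj.trans (Nat.gcd_dvd_right _ _))).trans
    (Finset.dvd_prod_of_mem _ hrM)

end Fermat.Agent.Ihara
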