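import Fermat.Agent.Ihara.VM

/-!
# Rational elements act trivially on germs of homomorphisms
-/

set_option autoImplicit false

noncomputable section

namespace Fermat.Agent.Ihara

open CongruenceSubgroup Matrix.SpecialLinearGroup
open scoped MatrixGroups

variable {k : Type*} [AddCommGroup k] {q M : ℕ} {Ψ : GL (Fin 2) ℚ → k}

lemma nat_pow_sub_cast {q s : ℕ} (hq : 1 ≤ q) : ((q ^ s - 1 : ℕ) : ℚ) = (q : ℚ) ^ s - 1 := by
  rw [Nat.cast_sub (Nat.one_le_pow _ _ hq)]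
  push_cast
  ring

lemma exists_cof {q a' s s' : ℕ} (hq : 1 ≤ q) (h : a' ∣ q ^ s - 1) (hs : s ∣ s') :
    ∃ e ∈ IA q 1, (q : ℚ) ^ s' - 1 = a' * e := by
  obtain ⟨t, rfl⟩ := hs
  have h1 : a' ∣ q ^ (s * t) - 1 := by
    refine h.trans ?_
    rw [pow_mul]
    have := Nat.sub_dvd_pow_sub_pow (q ^ s) 1 t
    rwa [one_pow] at this
  obtain ⟨e, he⟩ := h1
  refine ⟨e, by exact_mod_cast int_mem_IA q (e : ℤ), ?_⟩
  rw [← nat_pow_sub_cast hq, he]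
  push_cast
  ring

/-- **C3** -/
theorem c3 (hNT : NTLemma) (hq : q.Prime) (hM : M ≠ 0) (hqM : ¬ q ∣ M) {x : GL (Fin 2) ℚ}
    (hx : x ∈ GM q M) : ∃ s : ℕ, 0 < s ∧ (∀ r ∈ M.primeFactors, ¬ r ∣ s) ∧
      ∀ {k : Type} [AddCommGroup k] (Ψ : GL (Fin 2) ℚ → k), InV q M Ψ →
        cj (U ((q : ℚ) ^ (2 * s) - 1)) Ψ x = Ψ x := by
  have hqc : q.Coprime M := (Nat.Prime.coprime_iff_not_dvd hq).mpr hqM
  have hq1 : 1 ≤ q := hq.one_le
  by_cases hc0 : x 1 0 = 0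
  · refine ⟨1, one_pos, fun r hr h => ?_, fun Ψ h => ?_⟩
    · exact (Nat.prime_of_mem_primeFactors hr).one_lt.ne' (Nat.dvd_one.mp h)
    · have hz : (q : ℚ) ^ (2 * 1) - 1 ∈ IA q 1 := sub_mem (qpow_mem q _) (one_mem_IA q)
      have h1 : x • (OnePoint.infty : Cusp) = OnePoint.infty :=
        OnePoint.smul_infty_eq_self_iff.mpr hc0
      rw [(h.conjG (U_mem_G0 (N := 1) hz)).cusp x hx _ h1, h.cusp x hx _ h1]
  obtain ⟨C, hC0, hqC, hMC, hcC, hdiv⟩ := exists_gen hq hqc hx.2.2.2.1 hc0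
  have hqMC : q.Coprime (M * C) := hqc.mul_right hqC
  have hx00 : x 0 0 ∈ IA q 1 := by
    have := add_mem (IA_one hx.2.1) (one_mem_IA q)
    simpa using this
  have hx11 : x 1 1 ∈ IA q 1 := by
    have := add_mem (IA_one hx.2.2.2.2) (one_mem_IA q)
    simpa using this
  obtain ⟨d, hd⟩ := exists_int_rep (M := C) hqC hx11
  -- integer representatives
  have key : ∀ r : ℚ, r ∈ IA q 1 → r - 1 ∈ IA q M → r - x 0 0 ∈ IA q C →
      ∃ (a' s : ℕ), 0 < a' ∧ 0 < s ∧ (∀ r ∈ M.primeFactors, ¬ r ∣ s) ∧ a' ∣ q ^ s - 1 ∧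
        (a' : ℚ) - r ∈ IA q (M * C) := by
    intro r hr hr1 hrx
    obtain ⟨a, ha⟩ := exists_int_rep (M := M * C) hqMC hr
    have ha1 : (M : ℤ) ∣ a - 1 := by
      apply IA_int hqc
      push_cast
      have := sub_mem hr1 (IA_mono (dvd_mul_right M C) ha)
      have e : r - 1 - (r - a) = (a : ℚ) - 1 := by ring
      rwa [e] at this
    have hcop1 : IsCoprime a (M : ℤ) := by
      obtain ⟨w, hw⟩ := ha1
      exact ⟨1, -w, by linear_combination hw⟩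
    have hcop2 : IsCoprime a (C : ℤ) := by
      have h1 : (C : ℤ) ∣ a * d - 1 := by
        apply IA_int hqC
        push_cast
        have hdet : x 0 0 * x 1 1 - x 0 1 * x 1 0 = 1 := hx.1
        have e : (a : ℚ) * d - 1 = -((r - a) * d) + (r - x 0 0) * d - (x 1 1 - d) * x 0 0 +
            x 0 1 * x 1 0 := by linear_combination hdet
        rw [e]
        have hdA : (d : ℚ) ∈ IA q 1 := int_mem_IA q d
        exact add_mem (sub_mem (add_mem (neg_mem (IA_mul_right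
          (IA_mono (dvd_mul_left C M) ha) hdA)) (IA_mul_right hrx hdA))
          (IA_mul_right hd hx00)) (IA_mul_left (IA_one hx.2.2.1) hcC)
      obtain ⟨w, hw⟩ := h1
      exact ⟨d, -w, by linear_combination hw⟩
    have hcop : IsCoprime a ((M * C : ℕ) : ℤ) := by
      push_cast
      exact IsCoprime.mul_right hcop1 hcop2
    obtain ⟨a', s, ha'0, ha'1, hs0, hs, ha'⟩ := hNT q hq M.primeFactors (fun r hr =>
      ⟨Nat.prime_of_mem_primeFactors hr, fun hrq =>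
        hqM (hrq ▸ Nat.dvd_of_mem_primeFactors hr)⟩) (M * C)
      (Nat.mul_pos (Nat.pos_of_ne_zero hM) (Nat.pos_of_ne_zero hC0))
      (fun h => hq.one_lt.ne' (Nat.Coprime.eq_one_of_dvd hqMC h))
      (fun r hr => (Nat.dvd_of_mem_primeFactors hr).mul_right C) a hcop
      (fun r hr => (Int.natCast_dvd_natCast.mpr (Nat.dvd_of_mem_primeFactors hr)).trans ha1)
    refine ⟨a', s, ha'0, hs0, hs, ha', ?_⟩
    have h1 := int_mem_of_dvd (q := q) ha'1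
    push_cast at h1
    have := sub_mem h1 ha
    have e : (a' : ℚ) - a - (r - a) = a' - r := by ring
    rwa [e] at this
  obtain ⟨a', s₁, ha'0, hs₁0, hs₁, ha', ha'x⟩ := key (x 0 0) hx00 hx.2.1 (by simp [zero_mem])
  set y₁ : ℚ := ((a' : ℚ) - x 0 0) / x 1 0 with hy₁
  have hy₁M : y₁ ∈ IA q M := hdiv M _ ha'x
  have hy₁e : x 0 0 + y₁ * x 1 0 = a' := by rw [hy₁]; field_simp; ring
  have ha'A : (a' : ℚ) ∈ IA q 1 := by exact_mod_cast int_mem_IA q (a' : ℤ)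
  obtain ⟨a'', s₂, ha''0, hs₂0, hs₂, ha'', ha''x⟩ := key (a' + x 1 0)
    (add_mem ha'A (IA_one hx.2.2.2.1))
    (by
      have e : (a' : ℚ) + x 1 0 - 1 = ((a' : ℚ) - x 0 0) + x 1 0 + (x 0 0 - 1) := by ring
      rw [e]
      exact add_mem (add_mem (IA_mono (dvd_mul_right M C) ha'x) hx.2.2.2.1) hx.2.1)
    (by
      have e : (a' : ℚ) + x 1 0 - x 0 0 = ((a' : ℚ) - x 0 0) + x 1 0 := by ring
      rw [e]
      exact add_mem (IA_mono (dvd_mul_left C M) ha'x) hcC)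
  set y₂ : ℚ := ((a'' : ℚ) - (a' + x 1 0)) / x 1 0 with hy₂
  have hy₂M : y₂ ∈ IA q M := hdiv M _ ha''x
  have hy₂e : (a' : ℚ) + (1 + y₂) * x 1 0 = a'' := by rw [hy₂]; field_simp; ring
  refine ⟨s₁ * s₂, Nat.mul_pos hs₁0 hs₂0, fun r hr h => ?_, fun {k} _ Ψ h => ?_⟩
  · rcases (Nat.Prime.dvd_mul (Nat.prime_of_mem_primeFactors hr)).mp h with h | h
    · exact hs₁ r hr h
    · exact hs₂ r hr h
  -- the element `x'`
  have hU1 : U y₁ ∈ GM q M := U_mem_GM hy₁M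
  have hx' : U y₁ * x ∈ GM q M := mul_mem hU1 hx
  have h00 : (U y₁ * x) 0 0 = a' := by rw [mul_00, U_00, U_01]; linear_combination hy₁e
  have h10 : (U y₁ * x) 1 0 = x 1 0 := by rw [mul_10, U_10, U_11]; ring
  have ht : 1 + y₂ ∈ IA q 1 := add_mem (one_mem_IA q) (IA_one hy₂M)
  obtain ⟨e, he, hea⟩ := exists_cof hq1 ha' (s' := 2 * (s₁ * s₂)) ⟨2 * s₂, by ring⟩
  obtain ⟨e', he', hea'⟩ := exists_cof hq1 ha'' (s' := 2 * (s₁ * s₂)) ⟨2 * s₁, by ring⟩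
  have main : ∀ Ψ : GL (Fin 2) ℚ → k, InV q M Ψ →
      cj (U 1) Ψ x = cj (U ((q : ℚ) ^ (2 * (s₁ * s₂)))) Ψ x := by
    intro Ψ h
    have h1 := c2 hq.ne_zero h hx' ht he (by rw [h00]; exact hea) he'
      (by rw [h00, h10, hy₂e]; exact hea')
    have hred : ∀ z : ℚ, z ∈ IA q 1 → ∀ y : ℚ, y ∈ IA q M →
        cj (U (z + y)) Ψ (U y₁ * x) = cj (U z) Ψ x := by
      intro z hz y hy
      have h2 := h.conjG (U_mem_G0 (N := 1) hz)
      rw [U_add, ← cj_cj, h2.inner hx' (U_mem_GM hy), h2.mul _ hU1 _ hx, h2.U hy₁M, zero_add]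
    rw [hred 1 (one_mem_IA q) y₂ hy₂M] at h1
    rw [h1, mul_add, mul_one]
    exact hred _ (qpow_mem q _) _ (IA_mul_left (qpow_mem q _) hy₂M)
  have h3 := main (cj (U (-1)) Ψ) (h.conjG (U_mem_G0 (N := 1) (neg_mem (one_mem_IA q))))
  rw [cj_cj, cj_cj, ← U_add, ← U_add, neg_add_cancel, U_zero, cj_one] at h3
  rw [h3]
  congr 2
  ring

/-- the set of trivial translations -/
theorem c3' (hNT : NTLemma) (hq : q.Prime) (hM : M ≠ 0) (hqM : ¬ q ∣ M) {k : Type}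
    [AddCommGroup k] {Ψ : GL (Fin 2) ℚ → k} (h : InV q M Ψ) {x : GL (Fin 2) ℚ} (hx : x ∈ GM q M)
    {z : ℚ} (hz : z ∈ IA q (Nat.gcd (WW q M.primeFactors) M)) : cj (U z) Ψ x = Ψ x := by
  obtain ⟨s, hs0, hs, hc⟩ := c3 hNT hq hM hqM hx
  have hqc : q.Coprime M := (Nat.Prime.coprime_iff_not_dvd hq).mpr hqM
  let Z : AddSubgroup ℚ :=
    { carrier := {z | z ∈ IA q 1 ∧ ∀ Ψ : GL (Fin 2) ℚ → k, InV q M Ψ → cj (U z) Ψ x = Ψ x}
      zero_mem' := ⟨zero_mem _, fun Ψ _ => by rw [U_zero, cj_one]⟩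
      add_mem' := by
        rintro a b ⟨ha, ha'⟩ ⟨hb, hb'⟩
        refine ⟨add_mem ha hb, fun Ψ h => ?_⟩
        rw [U_add, ← cj_cj, hb' _ (h.conjG (U_mem_G0 (N := 1) ha)), ha' _ h]
      neg_mem' := by
        rintro a ⟨ha, ha'⟩
        refine ⟨neg_mem ha, fun Ψ h => ?_⟩
        have h1 := ha' _ (h.conjG (U_mem_G0 (N := 1) (neg_mem ha)))
        rw [cj_cj, ← U_add, neg_add_cancel, U_zero, cj_one] at h1
        exact h1.symm }
  have hZ1 : ∀ y ∈ IA q M, y ∈ Z := fun y hy =>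
    ⟨IA_one hy, fun Ψ h => h.inner hx (U_mem_GM hy)⟩
  have hZ2 : ((q : ℚ) ^ (2 * s) - 1) ∈ Z :=
    ⟨sub_mem (qpow_mem q _) (one_mem_IA q), fun Ψ h => hc Ψ h⟩
  -- the gcd
  set g := Nat.gcd M (q ^ (2 * s) - 1) with hg
  have hgZ : (g : ℚ) ∈ Z := by
    have h1 := Nat.gcd_eq_gcd_ab M (q ^ (2 * s) - 1)
    have h2 : (g : ℚ) = (M : ℚ) * (Nat.gcdA M (q ^ (2 * s) - 1) : ℤ) +
        ((q ^ (2 * s) - 1 : ℕ) : ℚ) * (Nat.gcdB M (q ^ (2 * s) - 1) : ℤ) := by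
      have := congrArg (fun z : ℤ => (z : ℚ)) h1
      push_cast at this
      exact_mod_cast this
    rw [h2, nat_pow_sub_cast hq.one_le]
    refine add_mem (hZ1 _ (mul_int_mem_IA q M _)) ?_
    have := zsmul_mem hZ2 (Nat.gcdB M (q ^ (2 * s) - 1))
    rw [zsmul_eq_mul, mul_comm] at this
    exact this
  have hgA : ∀ y ∈ IA q g, y ∈ Z := by
    intro y hy
    obtain ⟨n, w, hw⟩ := hy
    -- y = g * (w / q^n)
    have hq0 : (q : ℚ) ^ n ≠ 0 := pow_ne_zero _ (by exact_mod_cast hq.ne_zero)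
    have hr : (w : ℚ) / (q : ℚ) ^ n ∈ IA q 1 := ⟨n, w, by field_simp; simp⟩
    obtain ⟨z', hz'⟩ := exists_int_rep (M := M) hqc hr
    have e : y = (z' : ℚ) * g + g * ((w : ℚ) / (q : ℚ) ^ n - z') := by
      have : y = g * ((w : ℚ) / (q : ℚ) ^ n) := by
        field_simp
        linear_combination hw
      rw [this]; ring
    rw [e]
    refine add_mem ?_ (hZ1 _ ?_)
    · have := zsmul_mem hgZ z'
      rwa [zsmul_eq_mul] at this
    · exact IA_mul_left (by exact_mod_cast int_mem_IA q (g : ℤ)) hz'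
  have hdvd : g ∣ Nat.gcd (WW q M.primeFactors) M :=
    Nat.dvd_gcd (gcd_dvd_WW hq hM hqM hs) (Nat.gcd_dvd_left _ _)
  exact (hgA z (IA_mono hdvd hz)).2 Ψ h

/-! ### germs -/

/-- conjugation by `z` is trivial on germs of level `M` -/
def GI (q : ℕ) (z : GL (Fin 2) ℚ) : Prop :=
  ∀ M : ℕ, M ≠ 0 → ¬ q ∣ M → ∃ M' : ℕ, M' ≠ 0 ∧ ¬ q ∣ M' ∧ M ∣ M' ∧
    ∀ {k : Type} [AddCommGroup k] (Ψ : GL (Fin 2) ℚ → k), InV q M Ψ →
      ∀ x ∈ GM q M', cj z Ψ x = Ψ x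

lemma exists_den (hq : q.Prime) (r : ℚ) : ∃ n : ℕ, n ≠ 0 ∧ ¬ q ∣ n ∧ (n : ℚ) * r ∈ IA q 1 := by
  obtain ⟨j, n, hn, hd⟩ := Nat.exists_eq_pow_mul_and_not_dvd r.den_nz q hq.ne_one
  refine ⟨n, by rintro rfl; exact hn (dvd_zero q), hn, j, r.num, ?_⟩
  have h1 : (r.den : ℚ) * r = r.num := by rw [mul_comm]; exact Rat.mul_den_eq_num r
  rw [Nat.cast_one, one_mul, ← h1, hd]
  push_cast
  ring

lemma exists_den4 (hq : q.Prime) (z : GL (Fin 2) ℚ) : ∃ n : ℕ, n ≠ 0 ∧ ¬ q ∣ n ∧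
    ∀ i j, (n : ℚ) * z i j ∈ IA q 1 := by
  have h : ∀ p : Fin 2 × Fin 2, ∃ n : ℕ, n ≠ 0 ∧ ¬ q ∣ n ∧ (n : ℚ) * z p.1 p.2 ∈ IA q 1 :=
    fun p => exists_den hq _
  choose n hn0 hnq hn using h
  refine ⟨∏ p, n p, Finset.prod_ne_zero_iff.mpr fun p _ => hn0 p, ?_, fun i j => ?_⟩
  · intro h
    obtain ⟨p, _, hp⟩ := (Prime.dvd_finsetProd_iff hq.prime _).mp h
    exact hnq p hp
  · have h1 := Finset.prod_erase_mul Finset.univ n (Finset.mem_univ (i, j))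
    rw [← h1]
    push_cast
    rw [mul_assoc]
    refine IA_mul_left ?_ (hn (i, j))
    have := int_mem_IA q ((∏ p ∈ Finset.univ.erase (i, j), n p : ℕ) : ℤ)
    push_cast at this
    exact_mod_cast this

/-- conjugation by rational matrices -/
lemma exists_conj (hq : q.Prime) (z : GL (Fin 2) ℚ) (hM : M ≠ 0) (hqM : ¬ q ∣ M) :
    ∃ M' : ℕ, M' ≠ 0 ∧ ¬ q ∣ M' ∧ M ∣ M' ∧ ∀ x ∈ GM q M', z * x * z⁻¹ ∈ GM q M := by
  obtain ⟨n, hn0, hnq, hn⟩ := exists_den4 hq z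
  obtain ⟨n', hn'0, hn'q, hn'⟩ := exists_den4 hq z⁻¹
  refine ⟨M * (n * n'), mul_ne_zero hM (mul_ne_zero hn0 hn'0), ?_, dvd_mul_right _ _, ?_⟩
  · intro h
    rcases (Nat.Prime.dvd_mul hq).mp h with h | h
    · exact hqM h
    · rcases (Nat.Prime.dvd_mul hq).mp h with h | h
      · exact hnq h
      · exact hn'q h
  · intro x hx
    have hzz : z * z⁻¹ = 1 := mul_inv_cancel z
    have e00 := mul_00 z z⁻¹
    have e01 := mul_01 z z⁻¹
    have e10 := mul_10 z z⁻¹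
    have e11 := mul_11 z z⁻¹
    rw [hzz] at e00 e01 e10 e11
    have o00 : (1 : GL (Fin 2) ℚ) 0 0 = 1 := by simp
    have o01 : (1 : GL (Fin 2) ℚ) 0 1 = 0 := by simp
    have o10 : (1 : GL (Fin 2) ℚ) 1 0 = 0 := by simp
    have o11 : (1 : GL (Fin 2) ℚ) 1 1 = 1 := by simp
    rw [o00] at e00
    rw [o01] at e01
    rw [o10] at e10
    rw [o11] at e11
    have key : ∀ i j i' j' (w : ℚ), w ∈ IA q (M * (n * n')) → z i j * w * z⁻¹ i' j' ∈ IA q M := by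
      intro i j i' j' w hw
      obtain ⟨a, b, hab⟩ := hw
      have h1 := hn i j
      have h2 := hn' i' j'
      have h3 := IA_mul_left (IA_mul_left h1 h2) (mul_int_mem_IA q M b)
      obtain ⟨a', b', hab'⟩ := h3
      refine ⟨a' + a, b', ?_⟩
      rw [← hab']
      push_cast at hab
      rw [pow_add]
      linear_combination ((q : ℚ) ^ a' * z i j * z⁻¹ i' j') * hab
    refine ⟨by rw [dt_mul, dt_mul, dt_inv, hx.1, mul_one, mul_inv_cancel₀ (dt_ne z)], ?_, ?_, ?_, ?_⟩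
    · rw [mul_00, mul_00, mul_01]
      have e : (z 0 0 * x 0 0 + z 0 1 * x 1 0) * z⁻¹ 0 0 + (z 0 0 * x 0 1 + z 0 1 * x 1 1) * z⁻¹ 1 0 -
          1 = z 0 0 * (x 0 0 - 1) * z⁻¹ 0 0 + z 0 1 * x 1 0 * z⁻¹ 0 0 + z 0 0 * x 0 1 * z⁻¹ 1 0 +
          z 0 1 * (x 1 1 - 1) * z⁻¹ 1 0 := by linear_combination -e00
      rw [e]
      exact add_mem (add_mem (add_mem (key _ _ _ _ _ hx.2.1) (key _ _ _ _ _ hx.2.2.2.1))
        (key _ _ _ _ _ hx.2.2.1)) (key _ _ _ _ _ hx.2.2.2.2)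
    · rw [mul_01, mul_00, mul_01]
      have e : (z 0 0 * x 0 0 + z 0 1 * x 1 0) * z⁻¹ 0 1 + (z 0 0 * x 0 1 + z 0 1 * x 1 1) * z⁻¹ 1 1 =
          z 0 0 * (x 0 0 - 1) * z⁻¹ 0 1 + z 0 1 * x 1 0 * z⁻¹ 0 1 + z 0 0 * x 0 1 * z⁻¹ 1 1 +
          z 0 1 * (x 1 1 - 1) * z⁻¹ 1 1 := by linear_combination -e01
      rw [e]
      exact add_mem (add_mem (add_mem (key _ _ _ _ _ hx.2.1) (key _ _ _ _ _ hx.2.2.2.1))
        (key _ _ _ _ _ hx.2.2.1)) (key _ _ _ _ _ hx.2.2.2.2)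
    · rw [mul_10, mul_10, mul_11]
      have e : (z 1 0 * x 0 0 + z 1 1 * x 1 0) * z⁻¹ 0 0 + (z 1 0 * x 0 1 + z 1 1 * x 1 1) * z⁻¹ 1 0 =
          z 1 0 * (x 0 0 - 1) * z⁻¹ 0 0 + z 1 1 * x 1 0 * z⁻¹ 0 0 + z 1 0 * x 0 1 * z⁻¹ 1 0 +
          z 1 1 * (x 1 1 - 1) * z⁻¹ 1 0 := by linear_combination -e10
      rw [e]
      exact add_mem (add_mem (add_mem (key _ _ _ _ _ hx.2.1) (key _ _ _ _ _ hx.2.2.2.1))
        (key _ _ _ _ _ hx.2.2.1)) (key _ _ _ _ _ hx.2.2.2.2)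
    · rw [mul_11, mul_10, mul_11]
      have e : (z 1 0 * x 0 0 + z 1 1 * x 1 0) * z⁻¹ 0 1 + (z 1 0 * x 0 1 + z 1 1 * x 1 1) * z⁻¹ 1 1 -
          1 = z 1 0 * (x 0 0 - 1) * z⁻¹ 0 1 + z 1 1 * x 1 0 * z⁻¹ 0 1 + z 1 0 * x 0 1 * z⁻¹ 1 1 +
          z 1 1 * (x 1 1 - 1) * z⁻¹ 1 1 := by linear_combination -e11
      rw [e]
      exact add_mem (add_mem (add_mem (key _ _ _ _ _ hx.2.1) (key _ _ _ _ _ hx.2.2.2.1))
        (key _ _ _ _ _ hx.2.2.1)) (key _ _ _ _ _ hx.2.2.2.2)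

lemma GI.mul (hq : q.Prime) {z w : GL (Fin 2) ℚ} (hz : GI q z) (hw : GI q w) : GI q (z * w) := by
  intro M hM hqM
  obtain ⟨M₁, h10, h1q, h1M, h1⟩ := exists_conj hq z hM hqM
  obtain ⟨M₂, h20, h2q, h2M, h2⟩ := hw M₁ h10 h1q
  obtain ⟨M₃, h30, h3q, h3M, h3⟩ := hz M hM hqM
  refine ⟨M₂ * M₃, mul_ne_zero h20 h30, fun h => ?_, h3M.mul_left M₂, fun {k} _ Ψ hΨ x hx => ?_⟩
  · rcases (Nat.Prime.dvd_mul hq).mp h with h | h
    · exact h2q h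
    · exact h3q h
  · rw [← cj_cj, h2 _ (hΨ.conj h1) x (GM_mono (dvd_mul_right _ _) hx),
      h3 Ψ hΨ x (GM_mono (dvd_mul_left _ _) hx)]

/-- **C4** -/
theorem GI_U (hNT : NTLemma) (hq : q.Prime) (y : ℚ) : GI q (U y) := by
  intro M hM hqM
  obtain ⟨v, hv0, hvq, hv⟩ := exists_den hq y
  have hMv0 : M * v ≠ 0 := mul_ne_zero hM hv0
  have hMvq : ¬ q ∣ M * v := fun h => by
    rcases (Nat.Prime.dvd_mul hq).mp h with h | h
    · exact hqM h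
    · exact hvq h
  set W := WW q (M * v).primeFactors with hW
  have hW0 : W ≠ 0 := WW_ne hq fun r hr => Nat.prime_of_mem_primeFactors hr
  set n := (M * v) ^ W with hn
  have hn0 : n ≠ 0 := pow_ne_zero _ hMv0
  have hnq : ¬ q ∣ n := fun h => hMvq (hq.dvd_of_dvd_pow h)
  set M₁ := M * n ^ 2 with hM₁
  have hM₁0 : M₁ ≠ 0 := mul_ne_zero hM (pow_ne_zero _ hn0)
  have hM₁q : ¬ q ∣ M₁ := fun h => by
    rcases (Nat.Prime.dvd_mul hq).mp h with h | h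
    · exact hqM h
    · exact hnq (hq.dvd_of_dvd_pow h)
  have hpf : M₁.primeFactors = (M * v).primeFactors := by
    rw [hM₁, Nat.primeFactors_mul hM (pow_ne_zero _ hn0), Nat.primeFactors_pow _ (by norm_num), hn,
      Nat.primeFactors_pow _ hW0, Finset.union_eq_right]
    exact Nat.primeFactors_mono (dvd_mul_right M v) hMv0
  -- the gcd divides `n`
  have hg : Nat.gcd W M₁ ∣ n := by
    rw [Nat.dvd_iff_prime_pow_dvd_dvd]
    intro r j hr hj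
    rcases Nat.eq_zero_or_pos j with rfl | hj0
    · simp
    have h1 : r ^ j ∣ W := hj.trans (Nat.gcd_dvd_left _ _)
    have h2 : r ∣ M₁ := (dvd_pow_self r hj0.ne').trans (hj.trans (Nat.gcd_dvd_right _ _))
    have h3 : r ∣ M * v := by
      have : r ∈ M₁.primeFactors := Nat.mem_primeFactors.mpr ⟨hr, h2, hM₁0⟩
      rw [hpf] at this
      exact Nat.dvd_of_mem_primeFactors this
    have h4 : j ≤ W := by
      have h5 := Nat.le_of_dvd (Nat.pos_of_ne_zero hW0) h1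
      have h6 : j < r ^ j := Nat.lt_pow_self hr.one_lt
      omega
    exact (pow_dvd_pow_of_dvd h3 j).trans (pow_dvd_pow _ h4)
  have hn0' : (n : ℚ) ≠ 0 := by exact_mod_cast hn0
  set δ := Dg ((n : ℚ)⁻¹) with hδ
  have hni : ((n : ℚ)⁻¹) ≠ 0 := inv_ne_zero hn0'
  have d00 : δ 0 0 = (n : ℚ)⁻¹ := Dg_00 hni
  have d01 : δ 0 1 = 0 := Dg_01 hni
  have d10 : δ 1 0 = 0 := Dg_10 hni
  have d11 : δ 1 1 = n := by rw [hδ, Dg_11 hni, inv_inv]
  have hdδ : dt δ = 1 := dt_Dg hni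
  -- conjugation by `δ`
  have hmem : ∀ (L : ℕ), ∀ x ∈ GM q (L * n ^ 2), δ * x * δ⁻¹ ∈ GM q L ∧ δ⁻¹ * x * δ ∈ GM q L := by
    intro L x hx
    have hdiv : ∀ w : ℚ, w ∈ IA q (L * n ^ 2) → w * ((n : ℚ)⁻¹) ^ 2 ∈ IA q L := by
      intro w hw
      obtain ⟨a, b, hab⟩ := hw
      refine ⟨a, b, ?_⟩
      rw [← mul_assoc, hab]
      push_cast
      field_simp
    have hmul : ∀ w : ℚ, w ∈ IA q (L * n ^ 2) → w * (n : ℚ) ^ 2 ∈ IA q L := by
      intro w hw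
      have := IA_mul_right (IA_mono (dvd_mul_right L (n ^ 2)) hw) (int_mem_IA q ((n : ℤ) ^ 2))
      push_cast at this
      exact this
    obtain ⟨hx0, x1, x2, x3, x4⟩ := hx
    constructor
    · refine ⟨by rw [dt_mul, dt_mul, dt_inv, hx0, hdδ]; norm_num, ?_, ?_, ?_, ?_⟩
      · rw [mul_00, mul_00, mul_01, inv_00 hdδ, inv_10 hdδ, d00, d01, d10, d11]
        have e : ((n : ℚ)⁻¹ * x 0 0 + 0 * x 1 0) * n + ((n : ℚ)⁻¹ * x 0 1 + 0 * x 1 1) * -0 - 1 =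
            x 0 0 - 1 := by field_simp; ring
        rw [e]; exact IA_mono (dvd_mul_right _ _) x1
      · rw [mul_01, mul_00, mul_01, inv_01 hdδ, inv_11 hdδ, d00, d01]
        have e : ((n : ℚ)⁻¹ * x 0 0 + 0 * x 1 0) * -0 + ((n : ℚ)⁻¹ * x 0 1 + 0 * x 1 1) * (n : ℚ)⁻¹ =
            x 0 1 * ((n : ℚ)⁻¹) ^ 2 := by ring
        rw [e]; exact hdiv _ x2
      · rw [mul_10, mul_10, mul_11, inv_00 hdδ, inv_10 hdδ, d10, d11]
        have e : (0 * x 0 0 + (n : ℚ) * x 1 0) * n + (0 * x 0 1 + (n : ℚ) * x 1 1) * -0 =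
            x 1 0 * (n : ℚ) ^ 2 := by ring
        rw [e]; exact hmul _ x3
      · rw [mul_11, mul_10, mul_11, inv_01 hdδ, inv_11 hdδ, d00, d01, d10, d11]
        have e : (0 * x 0 0 + (n : ℚ) * x 1 0) * -0 + (0 * x 0 1 + (n : ℚ) * x 1 1) * (n : ℚ)⁻¹ - 1 =
            x 1 1 - 1 := by field_simp; ring
        rw [e]; exact IA_mono (dvd_mul_right _ _) x4
    · refine ⟨by rw [dt_mul, dt_mul, dt_inv, hx0, hdδ]; norm_num, ?_, ?_, ?_, ?_⟩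
      · rw [mul_00, mul_00, mul_01, inv_00 hdδ, inv_01 hdδ, d00, d01, d10, d11]
        have e : ((n : ℚ) * x 0 0 + -0 * x 1 0) * (n : ℚ)⁻¹ + ((n : ℚ) * x 0 1 + -0 * x 1 1) * 0 - 1 =
            x 0 0 - 1 := by field_simp; ring
        rw [e]; exact IA_mono (dvd_mul_right _ _) x1
      · rw [mul_01, mul_00, mul_01, inv_00 hdδ, inv_01 hdδ, d01, d11]
        have e : ((n : ℚ) * x 0 0 + -0 * x 1 0) * 0 + ((n : ℚ) * x 0 1 + -0 * x 1 1) * n =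
            x 0 1 * (n : ℚ) ^ 2 := by ring
        rw [e]; exact hmul _ x2
      · rw [mul_10, mul_10, mul_11, inv_10 hdδ, inv_11 hdδ, d00, d10]
        have e : (-0 * x 0 0 + (n : ℚ)⁻¹ * x 1 0) * (n : ℚ)⁻¹ + (-0 * x 0 1 + (n : ℚ)⁻¹ * x 1 1) * 0 =
            x 1 0 * ((n : ℚ)⁻¹) ^ 2 := by ring
        rw [e]; exact hdiv _ x3
      · rw [mul_11, mul_10, mul_11, inv_10 hdδ, inv_11 hdδ, d00, d01, d10, d11]
        have e : (-0 * x 0 0 + (n : ℚ)⁻¹ * x 1 0) * 0 + (-0 * x 0 1 + (n : ℚ)⁻¹ * x 1 1) * n - 1 =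
            x 1 1 - 1 := by field_simp; ring
        rw [e]; exact IA_mono (dvd_mul_right _ _) x4
  refine ⟨M₁ * n ^ 2, mul_ne_zero hM₁0 (pow_ne_zero _ hn0), fun h => ?_, ?_,
    fun {k} _ Ψ hΨ x₁ hx₁ => ?_⟩
  · rcases (Nat.Prime.dvd_mul hq).mp h with h | h
    · exact hM₁q h
    · exact hnq (hq.dvd_of_dvd_pow h)
  · exact (dvd_mul_right M (n ^ 2)).mul_right _
  -- the computation
  have hx : δ⁻¹ * x₁ * δ ∈ GM q M₁ := (hmem M₁ x₁ hx₁).2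
  have hΨδ : InV q M₁ (cj δ Ψ) := hΨ.conj fun x hx => (hmem M x hx).1
  have hz : y * (n : ℚ) ^ 2 ∈ IA q (Nat.gcd (WW q M₁.primeFactors) M₁) := by
    rw [hpf, ← hW]
    have hvn : v ∣ n := (dvd_mul_left v M).trans (dvd_pow_self _ hW0)
    obtain ⟨c, hc⟩ := hvn
    have e : y * (n : ℚ) ^ 2 = (n : ℚ) * ((v : ℚ) * y * c) := by
      rw [pow_two]
      nth_rw 2 [hc]
      push_cast
      ring
    rw [e]
    refine IA_mul_right ?_ (IA_mul_right hv (by exact_mod_cast int_mem_IA q (c : ℤ)))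
    have := int_mem_of_dvd (q := q) (M := Nat.gcd W M₁) (z := (n : ℤ)) (by exact_mod_cast hg)
    exact_mod_cast this
  have h1 := c3' hNT hq hM₁0 hM₁q hΨδ hx hz
  have hUδ : δ * U (y * (n : ℚ) ^ 2) = U y * δ := by
    apply gl_ext
    · rw [mul_00, mul_00, d00, d01, d10, U_00, U_00, U_10, U_01]; ring
    · rw [mul_01, mul_01, d00, d01, d11, U_00, U_01, U_11, U_01]; field_simp; ring
    · rw [mul_10, mul_10, d00, d10, d11, U_00, U_10, U_10, U_11]; ring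
    · rw [mul_11, mul_11, d01, d10, d11, U_01, U_10, U_11, U_11]; ring
  rw [cj_cj, hUδ, cj_apply, cj_apply] at h1
  rw [cj_apply]
  have e1 : U y * δ * (δ⁻¹ * x₁ * δ) * (U y * δ)⁻¹ = U y * x₁ * (U y)⁻¹ := by group
  have e2 : δ * (δ⁻¹ * x₁ * δ) * δ⁻¹ = x₁ := by group
  rw [e1, e2] at h1
  exact h1

end Fermat.Agent.Ihara
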