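import Fermat.Agent.Ihara.VM2

/-!
# Rational elements act trivially on germs of homomorphisms, second part
-/

set_option autoImplicit false

noncomputable section

namespace Fermat.Agent.Ihara

open CongruenceSubgroup Matrix.SpecialLinearGroup
open scoped MatrixGroups

variable {k : Type*} [AddCommGroup k] {q M : ℕ} {Ψ : GL (Fin 2) ℚ → k}

/-- the element `S` -/
def SS : GL (Fin 2) ℚ := g4 0 (-1) 1 0

lemma SS_00 : SS 0 0 = 0 := g4_00 (by norm_num)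
lemma SS_01 : SS 0 1 = -1 := g4_01 (by norm_num)
lemma SS_10 : SS 1 0 = 1 := g4_10 (by norm_num)
lemma SS_11 : SS 1 1 = 0 := g4_11 (by norm_num)
lemma dt_SS : dt SS = 1 := by rw [dt, SS_00, SS_01, SS_10, SS_11]; norm_num

lemma SS_mem : SS ∈ G0 q 1 := by
  refine ⟨dt_SS, ?_, ?_, ?_, ?_⟩
  · rw [SS_00]; exact zero_mem _
  · rw [SS_01]; exact neg_mem (one_mem_IA q)
  · rw [SS_10]; exact one_mem_IA q
  · rw [SS_11]; exact zero_mem _

lemma Lo_eq (y : ℚ) : Lo y = SS * U (-y) * SS⁻¹ := by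
  rw [eq_mul_inv_iff_mul_eq]
  apply gl_ext
  · rw [mul_00, mul_00, Lo_00, Lo_01, SS_00, SS_10, SS_01, U_00, U_10]; ring
  · rw [mul_01, mul_01, Lo_00, Lo_01, SS_00, SS_01, SS_11, U_01, U_11]; ring
  · rw [mul_10, mul_10, Lo_10, Lo_11, SS_00, SS_10, SS_11, U_00, U_10]; ring
  · rw [mul_11, mul_11, Lo_10, Lo_11, SS_01, SS_10, SS_11, U_01, U_11]; ring

lemma GI.conjG {z w : GL (Fin 2) ℚ} (hz : GI q z) (hw : w ∈ G0 q 1) : GI q (w * z * w⁻¹) := by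
  intro M hM hqM
  obtain ⟨M', h0, h1, h2, h3⟩ := hz M hM hqM
  refine ⟨M', h0, h1, h2, fun {k} _ Ψ hΨ x hx => ?_⟩
  have hx' : w⁻¹ * x * w ∈ GM q M' := by
    have := GM_conj (inv_mem hw) hx
    rwa [inv_inv] at this
  have h4 := h3 (cj w Ψ) (hΨ.conjG hw) _ hx'
  rw [cj_cj, cj_apply, cj_apply] at h4
  rw [cj_apply]
  have e1 : w * z * (w⁻¹ * x * w) * (w * z)⁻¹ = w * z * w⁻¹ * x * (w * z * w⁻¹)⁻¹ := by group
  have e2 : w * (w⁻¹ * x * w) * w⁻¹ = x := by group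
  rw [e1, e2] at h4
  exact h4

lemma GI_Lo (hNT : NTLemma) (hq : q.Prime) (y : ℚ) : GI q (Lo y) := by
  rw [Lo_eq]
  exact (GI_U hNT hq (-y)).conjG SS_mem

lemma GI_one' (hNT : NTLemma) (hq : q.Prime) {z : GL (Fin 2) ℚ} (hz : dt z = 1) (hc : z 1 0 ≠ 0) :
    GI q z := by
  have e : z = U ((z 0 0 - 1) / z 1 0) * Lo (z 1 0) * U ((z 1 1 - 1) / z 1 0) := by
    have hdet : z 0 0 * z 1 1 - z 0 1 * z 1 0 = 1 := hz
    apply gl_ext
    · rw [mul_00, mul_00, mul_01, U_00, U_01, U_00, U_10, Lo_00, Lo_01, Lo_10, Lo_11]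
      field_simp; ring
    · rw [mul_01, mul_00, mul_01, U_00, U_01, U_01, U_11, Lo_00, Lo_01, Lo_10, Lo_11]
      field_simp
      linear_combination -hdet
    · rw [mul_10, mul_10, mul_11, U_10, U_11, U_00, U_10, Lo_00, Lo_01, Lo_10, Lo_11]; ring
    · rw [mul_11, mul_10, mul_11, U_10, U_11, U_01, U_11, Lo_00, Lo_01, Lo_10, Lo_11]
      field_simp; ring
  rw [e]
  exact ((GI_U hNT hq _).mul hq (GI_Lo hNT hq _)).mul hq (GI_U hNT hq _)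

theorem GI_one (hNT : NTLemma) (hq : q.Prime) {z : GL (Fin 2) ℚ} (hz : dt z = 1) : GI q z := by
  by_cases hc : z 1 0 = 0
  · have h11 : z 1 1 ≠ 0 := by
      intro h
      have := hz
      rw [dt, hc, h] at this
      norm_num at this
    have h1 : GI q (z * Lo 1) := by
      refine GI_one' hNT hq (by rw [dt_mul, hz, dt_Lo, one_mul]) ?_
      rw [mul_10, Lo_00, Lo_10, hc]
      simpa using h11
    have e : z = (z * Lo 1) * Lo (-1) := by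
      rw [mul_assoc]
      have : Lo 1 * Lo (-1) = 1 := by
        apply gl_ext
        · rw [mul_00, Lo_00, Lo_01, Lo_00]; simp
        · rw [mul_01, Lo_00, Lo_01, Lo_01, Lo_11]; simp
        · rw [mul_10, Lo_10, Lo_11, Lo_00, Lo_10]; simp
        · rw [mul_11, Lo_10, Lo_11, Lo_01, Lo_11]; simp
      rw [this, mul_one]
    rw [e]
    exact h1.mul hq (GI_Lo hNT hq _)
  · exact GI_one' hNT hq hz hc

/-- elements whose determinant is a square -/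
theorem GI_sq (hNT : NTLemma) (hq : q.Prime) {z : GL (Fin 2) ℚ} {t : ℚ} (ht : t ≠ 0)
    (hz : dt z = t ^ 2) : GI q z := by
  have hs : t * t - 0 * 0 ≠ 0 := by simpa using ht
  set c : GL (Fin 2) ℚ := g4 t 0 0 t with hc
  have c00 : c 0 0 = t := g4_00 hs
  have c01 : c 0 1 = 0 := g4_01 hs
  have c10 : c 1 0 = 0 := g4_10 hs
  have c11 : c 1 1 = t := g4_11 hs
  have hcomm : ∀ x : GL (Fin 2) ℚ, c * x = x * c := by
    intro x
    apply gl_ext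
    · rw [mul_00, mul_00, c00, c01, c10]; ring
    · rw [mul_01, mul_01, c00, c01, c11]; ring
    · rw [mul_10, mul_10, c00, c10, c11]; ring
    · rw [mul_11, mul_11, c01, c10, c11]; ring
  have hdc : dt c = t ^ 2 := by rw [dt, c00, c01, c10, c11]; ring
  have h1 : dt (c⁻¹ * z) = 1 := by
    rw [dt_mul, dt_inv, hdc, hz, inv_mul_cancel₀ (pow_ne_zero _ ht)]
  intro M hM hqM
  obtain ⟨M', h0, h2, h3, h4⟩ := GI_one hNT hq h1 M hM hqM
  refine ⟨M', h0, h2, h3, fun {k} _ Ψ hΨ x hx => ?_⟩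
  have h5 := h4 Ψ hΨ x hx
  rw [cj_apply] at h5 ⊢
  rw [← h5]
  congr 1
  have e : c⁻¹ * z * x * (c⁻¹ * z)⁻¹ = c⁻¹ * (z * x * z⁻¹) * c := by group
  rw [e, ← hcomm, mul_inv_cancel_left]

/-- uniform version -/
lemma GI_finset (hq : q.Prime) {κ : Type*} (s : Finset κ) {z : κ → GL (Fin 2) ℚ}
    (hz : ∀ i ∈ s, GI q (z i)) (hM : M ≠ 0) (hqM : ¬ q ∣ M) :
    ∃ M' : ℕ, M' ≠ 0 ∧ ¬ q ∣ M' ∧ M ∣ M' ∧ ∀ i ∈ s, (∀ x ∈ GM q M', z i * x * (z i)⁻¹ ∈ GM q M) ∧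
      ∀ {k : Type} [AddCommGroup k] (Ψ : GL (Fin 2) ℚ → k), InV q M Ψ →
        ∀ x ∈ GM q M', cj (z i) Ψ x = Ψ x := by
  classical
  induction s using Finset.induction_on with
  | empty => exact ⟨M, hM, hqM, dvd_rfl, fun i hi => absurd hi (Finset.notMem_empty i)⟩
  | insert a s ha ih =>
    obtain ⟨M₁, h10, h1q, h1M, h1⟩ := ih fun i hi => hz i (Finset.mem_insert_of_mem hi)
    obtain ⟨M₂, h20, h2q, h2M, h2⟩ := hz a (Finset.mem_insert_self _ _) M hM hqM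
    obtain ⟨M₃, h30, h3q, h3M, h3⟩ := exists_conj hq (z a) hM hqM
    refine ⟨M₁ * (M₂ * M₃), mul_ne_zero h10 (mul_ne_zero h20 h30), fun h => ?_,
      h1M.mul_right _, fun i hi => ?_⟩
    · rcases (Nat.Prime.dvd_mul hq).mp h with h | h
      · exact h1q h
      · rcases (Nat.Prime.dvd_mul hq).mp h with h | h
        · exact h2q h
        · exact h3q h
    · rcases Finset.mem_insert.mp hi with rfl | hi
      · exact ⟨fun x hx => h3 x (GM_mono ((dvd_mul_left M₃ M₂).mul_left M₁) hx),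
          fun {k} _ Ψ hΨ x hx => h2 Ψ hΨ x (GM_mono ((dvd_mul_right M₂ M₃).mul_left M₁) hx)⟩
      · exact ⟨fun x hx => (h1 i hi).1 x (GM_mono (dvd_mul_right _ _) hx),
          fun {k} _ Ψ hΨ x hx => (h1 i hi).2 Ψ hΨ x (GM_mono (dvd_mul_right _ _) hx)⟩

/-! ### the hom attached to a symbol -/

/-- the hom attached to a symbol -/
def Hm (φ : Cusp → Cusp → k) (x : GL (Fin 2) ℚ) : k := φ OnePoint.infty (x • OnePoint.infty)

variable {N : ℕ} {φ : Cusp → Cusp → k}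

lemma inV_Hm (hφ : IsMS φ) (hG : ∀ g ∈ G0 q N, tr g φ = φ) : InV q N (Hm φ) where
  mul x hx y _ := by
    rw [Hm, hφ.hom (hG x (GM_le_G0 dvd_rfl hx)) y]
    rfl
  cusp x hx α hα := by
    rw [Hm, hφ.base (hG x (GM_le_G0 dvd_rfl hx)) _ α, hα, hφ.self]

lemma tr_Hm (hφ : IsMS φ) (hG : ∀ g ∈ G0 q N, tr g φ = φ) {z x : GL (Fin 2) ℚ}
    (h : z * x * z⁻¹ ∈ G0 q N) : Hm (tr z φ) x = cj z (Hm φ) x := by
  rw [Hm, tr_apply, cj_apply, Hm, hφ.base (hG _ h) OnePoint.infty (z • OnePoint.infty)]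
  congr 1
  rw [← mul_smul, ← mul_smul]
  congr 1
  group

/-- representatives of `T_ℓ` -/
def rep (ℓ : ℕ) : Option (Fin ℓ) → GL (Fin 2) ℚ
  | none => um ℓ 0 1
  | some j => um 1 (j : ℕ) ℓ

lemma TS_eq (ℓ : ℕ) (φ : Cusp → Cusp → k) : TS ℓ φ = ∑ i, tr (rep ℓ i) φ := by
  rw [Fintype.sum_option, TS, Finset.sum_range]
  rfl

lemma dt_rep {ℓ : ℕ} (hℓ : ℓ ≠ 0) (i : Option (Fin ℓ)) : dt (rep ℓ i) = ℓ := by
  have hℓ' : (ℓ : ℚ) ≠ 0 := by exact_mod_cast hℓ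
  rcases i with _ | j
  · have h : (ℓ : ℚ) * 1 ≠ 0 := by simpa using hℓ'
    rw [dt, rep, coe_um h]; simp
  · have h : (1 : ℚ) * (ℓ : ℚ) ≠ 0 := by simpa using hℓ'
    rw [dt, rep, coe_um h]; simp

lemma IsMS.TS (h : IsMS φ) (ℓ : ℕ) : IsMS (TS ℓ φ) := by
  rw [TS_eq]
  exact IsMS.sum _ fun i _ => h.ap _

/-- **C5** -/
theorem c5 (hNT : NTLemma) (hq : q.Prime) (hN : N ≠ 0) (hqN : ¬ q ∣ N) {k : Type} [AddCommGroup k]
    {φ : Cusp → Cusp → k} (hφ : IsMS φ) (hG : ∀ g ∈ G0 q N, tr g φ = φ) {ℓ : ℕ} (hℓ : ℓ ≠ 0) :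
    ∃ M' : ℕ, M' ≠ 0 ∧ ¬ q ∣ M' ∧ N ∣ M' ∧ ∀ x ∈ GM q M', Hm (FS ℓ φ) x = 0 := by
  have hℓ' : (ℓ : ℚ) ≠ 0 := by exact_mod_cast hℓ
  obtain ⟨M', h0, h1, h2, h3⟩ := GI_finset (q := q) (M := N) hq
    (Finset.univ : Finset (Option (Fin ℓ) × Option (Fin ℓ)))
    (z := fun p => rep ℓ p.2 * rep ℓ p.1) (fun p _ => GI_sq hNT hq hℓ' (by
      rw [dt_mul, dt_rep hℓ, dt_rep hℓ]; ring)) hN hqN
  refine ⟨M', h0, h1, h2, fun x hx => ?_⟩
  have e1 : TS ℓ (TS ℓ φ) = ∑ p : Option (Fin ℓ) × Option (Fin ℓ), tr (rep ℓ p.2 * rep ℓ p.1) φ := by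
    rw [TS_eq, Fintype.sum_prod_type]
    refine Finset.sum_congr rfl fun i _ => ?_
    rw [TS_eq, tr_sum]
    refine Finset.sum_congr rfl fun j _ => ?_
    rw [tr_mul]
  have e2 : Hm (FS ℓ φ) x = ∑ p : Option (Fin ℓ) × Option (Fin ℓ), Hm (tr (rep ℓ p.2 * rep ℓ p.1) φ) x
      - ((ℓ + 1) ^ 2) • Hm φ x := by
    rw [Hm, FS, e1]
    simp only [Pi.sub_apply, Pi.smul_apply]
    congr 1
    rw [Finset.sum_apply, Finset.sum_apply]
    rfl
  have e3 : ∀ p : Option (Fin ℓ) × Option (Fin ℓ), Hm (tr (rep ℓ p.2 * rep ℓ p.1) φ) x = Hm φ x := by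
    intro p
    obtain ⟨h4, h5⟩ := h3 p (Finset.mem_univ p)
    rw [tr_Hm hφ hG (GM_le_G0 dvd_rfl (h4 x hx))]
    exact h5 _ (inV_Hm hφ hG) x hx
  rw [e2, Finset.sum_congr rfl fun p _ => e3 p, Finset.sum_const, Finset.card_univ, Fintype.card_prod,
    Fintype.card_option, Fintype.card_fin, pow_two, sub_self]

end Fermat.Agent.Ihara
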